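import Mathlib
import Fermat.Agent.Lib.EmbOrbit

/-!
# Valuation subrings over a point are the pulled back valuation rings of embeddings

`A` a Dedekind domain with fraction field `B`, `P` a maximal ideal, `L / B` finite separable,
`(E, v)` a valued field with `B → E`, `v ≤ 1` on `A` and `v < 1` on `P`, such that `L` has
`[L : B]` embeddings into `E` over `B`.

* `exists_forall_mem_iff_lt_one` : every prime of the integral closure of `A` in `L` over `P` is
  the center of an embedding (prime avoidance + the norm is the product over the embeddings);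
* `exists_valuationSubring_eq` (EO2) : every valuation subring of `L` over `P` is the pulled back
  valuation ring of an embedding.
-/

set_option autoImplicit false


open Polynomial

namespace Fermat.Agent.Lib.EmbOrbit

section Integral

variable {E : Type*} [Field E] {Γ₀ : Type*} [LinearOrderedCommGroupWithZero Γ₀]
  (v : Valuation E Γ₀)

/-- An element integral over a ring mapping into `{v ≤ 1}` has `v ≤ 1`. -/
theorem le_one_of_isIntegralElem {A : Type*} [CommRing A] (f : A →+* E)
    (hA : ∀ a, v (f a) ≤ 1) {x : E} (hx : f.IsIntegralElem x) : v x ≤ 1 := by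
  obtain ⟨p, hm, hp⟩ := hx
  let φ : A →+* v.integer :=
    f.codRestrict v.integer (fun a => (Valuation.mem_integer_iff _ _).mpr (hA a))
  have hint : IsIntegral v.integer x := by
    refine ⟨p.map φ, hm.map φ, ?_⟩
    rw [Polynomial.eval₂_map]
    exact hp
  exact (Valuation.mem_integer_iff _ _).mp ((Valuation.integer.integers v).mem_of_integral hint)

end Integral

section Norm

variable {B L E : Type*} [Field B] [Field L] [Field E] [Algebra B L] [Algebra B E]
  [FiniteDimensional B L] [Algebra.IsSeparable B L]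

/-- If `L` has `[L : B]` embeddings into `E`, the norm is the product over these embeddings. -/
theorem algebraMap_norm_eq_prod (hcard : Nat.card (L →ₐ[B] E) = Module.finrank B L) (z : L) :
    algebraMap B E (Algebra.norm B z) = ∏ ι : L →ₐ[B] E, ι z := by
  classical
  have h1 := Algebra.norm_eq_prod_embeddings B (AlgebraicClosure E) z
  let Φ : (L →ₐ[B] E) → (L →ₐ[B] AlgebraicClosure E) :=
    fun ι => (IsScalarTower.toAlgHom B E (AlgebraicClosure E)).comp ι
  have hΦinj : Function.Injective Φ := by
    intro ι ι' h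
    ext y
    have h2 := congrArg (fun σ : L →ₐ[B] AlgebraicClosure E => σ y) h
    exact (algebraMap E (AlgebraicClosure E)).injective h2
  have hΦbij : Function.Bijective Φ := by
    rw [Fintype.bijective_iff_injective_and_card]
    refine ⟨hΦinj, ?_⟩
    rw [AlgHom.card B L (AlgebraicClosure E), ← hcard, Nat.card_eq_fintype_card]
  apply (algebraMap E (AlgebraicClosure E)).injective
  rw [← IsScalarTower.algebraMap_apply, h1, map_prod]
  exact (Fintype.prod_bijective Φ hΦbij _ _ (fun ι => rfl)).symm

end Norm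

section Center

variable {R : Type*} [CommRing R] {L : Type*} [Field L] [Algebra R L]
variable {Γ₁ Γ₂ : Type*} [LinearOrderedCommGroupWithZero Γ₁] [LinearOrderedCommGroupWithZero Γ₂]

/-- The center on `R` of a valuation of `L` which is `≤ 1` on `R`. -/
def centerIdeal (w : Valuation L Γ₁) (hw : ∀ r : R, w (algebraMap R L r) ≤ 1) : Ideal R where
  carrier := {r | w (algebraMap R L r) < 1}
  add_mem' := fun {a b} ha hb => by
    show w (algebraMap R L (a + b)) < 1
    rw [map_add]
    exact lt_of_le_of_lt (w.map_add _ _) (max_lt ha hb)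
  zero_mem' := by
    show w (algebraMap R L 0) < 1
    rw [map_zero, map_zero]
    exact zero_lt_one
  smul_mem' := fun c x hx => by
    show w (algebraMap R L (c • x)) < 1
    rw [smul_eq_mul, map_mul, map_mul]
    calc w (algebraMap R L c) * w (algebraMap R L x)
        ≤ 1 * w (algebraMap R L x) := mul_le_mul' (hw c) le_rfl
      _ = w (algebraMap R L x) := one_mul _
      _ < 1 := hx

theorem mem_centerIdeal (w : Valuation L Γ₁) (hw : ∀ r : R, w (algebraMap R L r) ≤ 1) (r : R) :
    r ∈ centerIdeal w hw ↔ w (algebraMap R L r) < 1 := Iff.rfl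

theorem centerIdeal_isPrime (w : Valuation L Γ₁) (hw : ∀ r : R, w (algebraMap R L r) ≤ 1) :
    (centerIdeal w hw).IsPrime := by
  refine ⟨?_, ?_⟩
  · intro h
    have h1 : (1 : R) ∈ centerIdeal w hw := by rw [h]; trivial
    rw [mem_centerIdeal, map_one, map_one] at h1
    exact lt_irrefl _ h1
  · intro a b hab
    rw [mem_centerIdeal, map_mul, map_mul] at hab
    by_contra hcon
    rw [not_or] at hcon
    obtain ⟨ha, hb⟩ := hcon
    rw [mem_centerIdeal, not_lt] at ha hb
    have ha1 : w (algebraMap R L a) = 1 := le_antisymm (hw a) ha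
    have hb1 : w (algebraMap R L b) = 1 := le_antisymm (hw b) hb
    rw [ha1, hb1, one_mul] at hab
    exact lt_irrefl _ hab

variable [IsDedekindDomain R] [IsFractionRing R L]

/-- Two valuations of the fraction field of a Dedekind domain `R`, both `≤ 1` on `R`, with
comparable centers, have comparable valuation rings. -/
theorem le_one_of_center_le (w : Valuation L Γ₁) (w' : Valuation L Γ₂)
    (hw : ∀ r : R, w (algebraMap R L r) ≤ 1) (hw' : ∀ r : R, w' (algebraMap R L r) ≤ 1)
    (hc : ∀ r : R, w' (algebraMap R L r) < 1 → w (algebraMap R L r) < 1)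
    (y : L) (hy : w y ≤ 1) : w' y ≤ 1 := by
  have hone : ∀ r : R, w (algebraMap R L r) = 1 → w' (algebraMap R L r) = 1 := by
    intro r hr
    refine le_antisymm (hw' r) (not_lt.mp fun hlt => ?_)
    exact absurd (hc r hlt) (by rw [hr]; exact lt_irrefl _)
  by_cases hbot : centerIdeal w hw = ⊥
  · -- every nonzero element of `R` is a unit for both
    obtain ⟨a, s, hs, rfl⟩ := IsFractionRing.div_surjective (A := R) y
    have hs0 : s ≠ 0 := nonZeroDivisors.ne_zero hs
    have hs1 : w (algebraMap R L s) = 1 := by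
      refine le_antisymm (hw s) (not_lt.mp fun hlt => hs0 ?_)
      have : s ∈ centerIdeal w hw := hlt
      rw [hbot] at this
      exact this
    rw [map_div₀, hone s hs1, div_one]
    exact hw' a
  · let 𝔮 : IsDedekindDomain.HeightOneSpectrum R := ⟨centerIdeal w hw, centerIdeal_isPrime w hw, hbot⟩
    obtain ⟨n, d, hnd⟩ := 𝔮.exists_primeCompl_mul_eq_or_mul_eq y
    have hd : w (algebraMap R L d) = 1 := by
      refine le_antisymm (hw d) (not_lt.mp fun hlt => ?_)
      exact d.2 hlt
    have hd' := hone _ hd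
    rcases hnd with hnd | hnd
    · have h1 := congrArg w' hnd
      rw [map_mul, hd', mul_one] at h1
      rw [h1]
      exact hw' n
    · have h1 := congrArg w hnd
      rw [map_mul, hd] at h1
      have hn : w (algebraMap R L n) = 1 := by
        refine le_antisymm (hw n) ?_
        rw [← h1]
        calc w y * w (algebraMap R L n) ≤ 1 * w (algebraMap R L n) := mul_le_mul' hy le_rfl
          _ = w (algebraMap R L n) := one_mul _
      have h2 := congrArg w' hnd
      rw [map_mul, hd', hone n hn, mul_one] at h2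
      exact h2.le

end Center

section Exhaust

variable {A : Type*} [CommRing A] [IsDedekindDomain A]
variable {B : Type*} [Field B] [Algebra A B] [IsFractionRing A B]
variable {L : Type*} [Field L] [Algebra B L] [Algebra A L] [IsScalarTower A B L]
  [FiniteDimensional B L] [Algebra.IsSeparable B L]
variable {E : Type*} [Field E] [Algebra B E] {Γ₀ : Type*} [LinearOrderedCommGroupWithZero Γ₀]
  (v : Valuation E Γ₀)

omit [IsDedekindDomain A] [IsFractionRing A B] [FiniteDimensional B L] [Algebra.IsSeparable B L] in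
/-- Integral elements have `v ∘ ι ≤ 1`. -/
theorem le_one_of_mem_integralClosure
    (hA : ∀ a : A, v (algebraMap B E (algebraMap A B a)) ≤ 1)
    (ι : L →ₐ[B] E) (r : integralClosure A L) : v (ι (r : L)) ≤ 1 := by
  refine le_one_of_isIntegralElem v ((algebraMap B E).comp (algebraMap A B)) hA ?_
  obtain ⟨p, hm, hp⟩ := r.2
  refine ⟨p, hm, ?_⟩
  have h1 := Polynomial.hom_eval₂ p (algebraMap A L) (ι : L →+* E) (r : L)
  rw [hp, map_zero] at h1
  have h2 : (ι : L →+* E).comp (algebraMap A L) = (algebraMap B E).comp (algebraMap A B) := by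
    ext a
    simp only [RingHom.comp_apply, RingHom.coe_coe]
    rw [IsScalarTower.algebraMap_apply A B L, AlgHom.commutes]
  rw [h2] at h1
  exact h1.symm

/-- **Exhaustion, prime form.** Every prime of the integral closure over `P` is the center of an
embedding. -/
theorem exists_forall_mem_iff_lt_one
    (hA : ∀ a : A, v (algebraMap B E (algebraMap A B a)) ≤ 1)
    (P : Ideal A) [P.IsMaximal] (hP : ∀ a ∈ P, v (algebraMap B E (algebraMap A B a)) < 1)
    (hcard : Nat.card (L →ₐ[B] E) = Module.finrank B L)
    (𝔮 : Ideal (integralClosure A L)) [𝔮.IsPrime]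
    (h𝔮 : 𝔮.comap (algebraMap A (integralClosure A L)) = P) :
    ∃ ι : L →ₐ[B] E, ∀ r : integralClosure A L, r ∈ 𝔮 ↔ v (ι (r : L)) < 1 := by
  classical
  have : IsDedekindDomain (integralClosure A L) := integralClosure.isDedekindDomain A B L
  have : IsFractionRing (integralClosure A L) L :=
    integralClosure.isFractionRing_of_finite_extension B L
  have : Module.Finite A (integralClosure A L) :=
    IsIntegralClosure.finite A B L (integralClosure A L)
  have : Module.IsTorsionFree A L := by
    rw [Module.isTorsionFree_iff_algebraMap_injective, IsScalarTower.algebraMap_eq A B L]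
    exact (algebraMap B L).injective.comp (IsFractionRing.injective A B)
  have hR := le_one_of_mem_integralClosure (L := L) v hA
  -- the centers
  let cen : (L →ₐ[B] E) → Ideal (integralClosure A L) := fun ι =>
    centerIdeal (R := integralClosure A L) (v.comap (ι : L →+* E)) (fun r => hR ι r)
  have hcen : ∀ ι r, r ∈ cen ι ↔ v (ι (r : L)) < 1 := fun ι r => Iff.rfl
  have hcenprime : ∀ ι, (cen ι).IsPrime := fun ι => centerIdeal_isPrime _ _
  by_contra hne
  have hne' : ∀ ι : L →ₐ[B] E, ¬ ∀ r : integralClosure A L, r ∈ 𝔮 ↔ v (ι (r : L)) < 1 :=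
    fun ι h => hne ⟨ι, h⟩
  -- `𝔮` is maximal
  have h𝔮max : 𝔮.IsMaximal := by
    apply Ideal.isMaximal_of_isIntegral_of_isMaximal_comap (R := A)
    rw [h𝔮]
    infer_instance
  have hnle : ∀ ι, ¬ (𝔮 ≤ cen ι) := by
    intro ι hle
    have heq : 𝔮 = cen ι := h𝔮max.eq_of_le (hcenprime ι).ne_top hle
    exact hne' ι (fun r => by rw [heq]; exact hcen ι r)
  -- a nonempty set of embeddings
  have hpos : 0 < Nat.card (L →ₐ[B] E) := by
    rw [hcard]
    exact Module.finrank_pos
  obtain ⟨ι₀⟩ : Nonempty (L →ₐ[B] E) := (Nat.card_pos_iff.mp hpos).1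
  -- prime avoidance
  have havoid : ¬ ((𝔮 : Set (integralClosure A L)) ⊆
      ⋃ ι ∈ ((Finset.univ : Finset (L →ₐ[B] E)) : Set (L →ₐ[B] E)), (cen ι : Set _)) := by
    intro hsub
    obtain ⟨ι, -, hι⟩ := (Ideal.subset_union_prime (s := Finset.univ) (f := cen) ι₀ ι₀
      (fun i _ _ _ => hcenprime i)).mp hsub
    exact hnle ι hι
  obtain ⟨z, hz𝔮, hz⟩ := Set.not_subset.mp havoid
  have hz1 : ∀ ι : L →ₐ[B] E, v (ι (z : L)) = 1 := by
    intro ι
    refine le_antisymm (hR ι z) (not_lt.mp fun hlt => hz ?_)
    exact Set.mem_biUnion (Finset.mem_coe.mpr (Finset.mem_univ ι)) ((hcen ι z).mpr hlt)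
  -- the norm
  have hN1 := Algebra.algebraMap_intNorm (A := A) (K := B) (L := L) (B := integralClosure A L) z
  have hN2 := algebraMap_norm_eq_prod (B := B) (L := L) (E := E) hcard (z : L)
  have hvN : v (algebraMap B E (algebraMap A B (Algebra.intNorm A (integralClosure A L) z))) = 1 := by
    rw [hN1]
    have : algebraMap (integralClosure A L) L z = (z : L) := rfl
    rw [this, hN2, map_prod]
    exact Finset.prod_eq_one fun ι _ => hz1 ι
  have hNmem : Algebra.intNorm A (integralClosure A L) z ∈ P := by
    rw [← h𝔮, Ideal.mem_comap]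
    obtain ⟨c, hc⟩ := Algebra.dvd_algebraMap_intNorm_self A (integralClosure A L) z
    rw [hc]
    exact 𝔮.mul_mem_right c hz𝔮
  exact absurd (hP _ hNmem) (by rw [hvN]; exact lt_irrefl _)

/-- **(EO2) Exhaustion, valuation subring form.** Every valuation subring of `L` containing `A`
whose maximal ideal contains `P` is the pulled back valuation ring of an embedding. -/
theorem exists_valuationSubring_eq
    (hA : ∀ a : A, v (algebraMap B E (algebraMap A B a)) ≤ 1)
    (P : Ideal A) [P.IsMaximal] (hP : ∀ a ∈ P, v (algebraMap B E (algebraMap A B a)) < 1)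
    (hcard : Nat.card (L →ₐ[B] E) = Module.finrank B L)
    (O : ValuationSubring L) (hOA : ∀ a : A, algebraMap A L a ∈ O)
    (hOP : ∀ a ∈ P, algebraMap A L a ∈ O.nonunits) :
    ∃ ι : L →ₐ[B] E, O = (v.comap (ι : L →+* E)).valuationSubring := by
  classical
  have : IsDedekindDomain (integralClosure A L) := integralClosure.isDedekindDomain A B L
  have : IsFractionRing (integralClosure A L) L :=
    integralClosure.isFractionRing_of_finite_extension B L
  have hR := le_one_of_mem_integralClosure (L := L) v hA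
  -- `O` contains the integral closure
  have hOR : ∀ r : integralClosure A L, O.valuation (algebraMap (integralClosure A L) L r) ≤ 1 := by
    intro r
    refine le_one_of_isIntegralElem O.valuation (algebraMap A L) (fun a => ?_) r.2
    exact (O.valuation_le_one_iff _).mpr (hOA a)
  let 𝔮 : Ideal (integralClosure A L) := centerIdeal O.valuation hOR
  have h𝔮prime : 𝔮.IsPrime := centerIdeal_isPrime _ _
  have h𝔮 : 𝔮.comap (algebraMap A (integralClosure A L)) = P := by
    symm
    refine Ideal.IsMaximal.eq_of_le inferInstance (Ideal.comap_ne_top _ h𝔮prime.ne_top) ?_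
    intro a ha
    rw [Ideal.mem_comap]
    show O.valuation (algebraMap (integralClosure A L) L (algebraMap A (integralClosure A L) a)) < 1
    rw [← IsScalarTower.algebraMap_apply A (integralClosure A L) L]
    exact (O.mem_nonunits_iff).mp (hOP a ha)
  obtain ⟨ι, hι⟩ := exists_forall_mem_iff_lt_one v hA P hP hcard 𝔮 h𝔮
  refine ⟨ι, ?_⟩
  ext y
  rw [Valuation.mem_valuationSubring_iff, ← O.valuation_le_one_iff]
  constructor
  · intro hy
    exact le_one_of_center_le (R := integralClosure A L) O.valuation (v.comap (ι : L →+* E))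
      hOR (fun r => hR ι r) (fun r hr => (hι r).mpr hr) y hy
  · intro hy
    exact le_one_of_center_le (R := integralClosure A L) (v.comap (ι : L →+* E)) O.valuation
      (fun r => hR ι r) hOR (fun r hr => (hι r).mp hr) y hy

end Exhaust

section Count

variable {A : Type*} [CommRing A] [IsDedekindDomain A]
variable {B : Type*} [Field B] [Algebra A B] [IsFractionRing A B]
variable {L : Type*} [Field L] [Algebra B L] [Algebra A L] [IsScalarTower A B L]
  [FiniteDimensional B L] [Algebra.IsSeparable B L]
variable {E : Type*} [Field E] [Algebra B E] {Γ₀ : Type*} [LinearOrderedCommGroupWithZero Γ₀]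
  (v : Valuation E Γ₀)
variable {G : Type*} [Group G] [Fintype G] [MulSemiringAction G E]

/-- The pulled back valuation ring `{y | v (ι y) ≤ 1}` of an embedding. -/
noncomputable def valSub (ι : L →ₐ[B] E) : ValuationSubring L :=
  (v.comap (ι : L →+* E)).valuationSubring

omit [FiniteDimensional B L] [Algebra.IsSeparable B L] in
theorem mem_valSub (ι : L →ₐ[B] E) (y : L) : y ∈ valSub v ι ↔ v (ι y) ≤ 1 :=
  Valuation.mem_valuationSubring_iff _ _

omit [FiniteDimensional B L] [Algebra.IsSeparable B L] in
theorem mem_nonunits_valSub (ι : L →ₐ[B] E) (y : L) :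
    y ∈ (valSub v ι).nonunits ↔ v (ι y) < 1 := by
  rw [ValuationSubring.mem_nonunits_iff]
  exact (Valuation.isEquiv_iff_val_lt_one.mp
    (Valuation.isEquiv_valuation_valuationSubring (v.comap (ι : L →+* E)))).symm

/-- The valuation subring `O` of `L` lies over the maximal ideal `P` of `A`: it contains `A` and
the elements of `P` are non-units of `O`. -/
def IsOver (P : Ideal A) (O : ValuationSubring L) : Prop :=
  (∀ a : A, algebraMap A L a ∈ O) ∧ ∀ a ∈ P, algebraMap A L a ∈ O.nonunits

omit [IsDedekindDomain A] [IsFractionRing A B] [FiniteDimensional B L] [Algebra.IsSeparable B L] in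
theorem isOver_valSub (hA : ∀ a : A, v (algebraMap B E (algebraMap A B a)) ≤ 1)
    (P : Ideal A) (hP : ∀ a ∈ P, v (algebraMap B E (algebraMap A B a)) < 1) (ι : L →ₐ[B] E) :
    IsOver P (valSub v ι) := by
  have hι : ∀ a : A, ι (algebraMap A L a) = algebraMap B E (algebraMap A B a) := fun a => by
    rw [IsScalarTower.algebraMap_apply A B L, AlgHom.commutes]
  refine ⟨fun a => ?_, fun a ha => ?_⟩
  · rw [mem_valSub, hι]
    exact hA a
  · rw [mem_nonunits_valSub, hι]
    exact hP a ha

/-- **(EO2)** Every valuation subring over `P` is `valSub v ι` for some embedding `ι`. -/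
theorem exists_valSub_eq
    (hA : ∀ a : A, v (algebraMap B E (algebraMap A B a)) ≤ 1)
    (P : Ideal A) [P.IsMaximal] (hP : ∀ a ∈ P, v (algebraMap B E (algebraMap A B a)) < 1)
    (hcard : Nat.card (L →ₐ[B] E) = Module.finrank B L)
    (O : ValuationSubring L) (hO : IsOver P O) : ∃ ι : L →ₐ[B] E, valSub v ι = O := by
  obtain ⟨ι, hι⟩ := exists_valuationSubring_eq v hA P hP hcard O hO.1 hO.2
  exact ⟨ι, hι.symm⟩

omit [FiniteDimensional B L] [Algebra.IsSeparable B L] in
/-- **(EO1')** Two embeddings have the same valuation ring iff they are conjugate under `G`. -/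
theorem valSub_eq_iff (hv : ∀ (g : G) (x : E), v (g • x) = v x)
    (hfix : ∀ (g : G) (b : B), g • algebraMap B E b = algebraMap B E b)
    (hdense : ∀ c : E, (∀ g : G, g • c = c) → ∀ ε : Γ₀, ε ≠ 0 →
      ∃ b : B, v (c - algebraMap B E b) < ε)
    (x₀ : B) (hx₀ : v (algebraMap B E x₀) ≠ 0)
    (hx₀' : ∀ δ : Γ₀, δ ≠ 0 → ∃ m : ℕ, v (algebraMap B E x₀) ^ m < δ)
    (ι ι' : L →ₐ[B] E) :
    valSub v ι = valSub v ι' ↔ ∃ g : G, ∀ y : L, ι' y = g • ι y := by
  constructor
  · intro h
    refine exists_smul_eq_of_forall_le_one_imp v hfix hdense x₀ hx₀ hx₀' ι ι' fun y hy => ?_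
    rw [← mem_valSub, ← h, mem_valSub]
    exact hy
  · rintro ⟨g, hg⟩
    ext y
    rw [mem_valSub, mem_valSub, hg y, hv]

/-- **(EO3), setoid form.** For an injective family `ι : I → (L →ₐ[B] E)` of `[L : B]` embeddings
and an equivalence relation `r` on `I` which is "conjugate under `G`", `i ↦ valSub v (ι i)` induces
a bijection from `I / r` onto the valuation subrings of `L` over `P`.  (No action of `G` on `I` is
needed.) -/
theorem exists_bijective_quotient {I : Type*} (r : Setoid I) (ι : I → (L →ₐ[B] E))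
    (hι : Function.Injective ι)
    (hr : ∀ i i' : I, r i i' ↔ ∃ g : G, ∀ y : L, ι i' y = g • ι i y)
    (hcardI : Nat.card I = Module.finrank B L)
    (hv : ∀ (g : G) (x : E), v (g • x) = v x)
    (hfix : ∀ (g : G) (b : B), g • algebraMap B E b = algebraMap B E b)
    (hdense : ∀ c : E, (∀ g : G, g • c = c) → ∀ ε : Γ₀, ε ≠ 0 →
      ∃ b : B, v (c - algebraMap B E b) < ε)
    (x₀ : B) (hx₀ : v (algebraMap B E x₀) ≠ 0)
    (hx₀' : ∀ δ : Γ₀, δ ≠ 0 → ∃ m : ℕ, v (algebraMap B E x₀) ^ m < δ)
    (hA : ∀ a : A, v (algebraMap B E (algebraMap A B a)) ≤ 1)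
    (P : Ideal A) [P.IsMaximal] (hP : ∀ a ∈ P, v (algebraMap B E (algebraMap A B a)) < 1) :
    ∃ f : Quotient r → {O : ValuationSubring L // IsOver P O},
      Function.Bijective f ∧
        ∀ i : I, (f (Quotient.mk r i) : ValuationSubring L) = valSub v (ι i) := by
  classical
  -- `ι` is a bijection onto the set of all embeddings
  have hle : Nat.card (L →ₐ[B] E) ≤ Nat.card I := by
    rw [hcardI]
    exact card_algHom_le_finrank B L E
  have hιbij : Function.Bijective ι := hι.bijective_of_nat_card_le hle
  have hcard : Nat.card (L →ₐ[B] E) = Module.finrank B L := by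
    rw [← hcardI]
    exact (Nat.card_eq_of_bijective ι hιbij).symm
  have hconj := valSub_eq_iff (L := L) v hv hfix hdense x₀ hx₀ hx₀'
  let f₀ : I → {O : ValuationSubring L // IsOver P O} := fun i =>
    ⟨valSub v (ι i), isOver_valSub v hA P hP (ι i)⟩
  have hf₀ : ∀ i j : I, r i j → f₀ i = f₀ j := by
    intro i j hij
    apply Subtype.ext
    show valSub v (ι i) = valSub v (ι j)
    exact (hconj (ι i) (ι j)).mpr ((hr i j).mp hij)
  refine ⟨Quotient.lift f₀ hf₀, ⟨?_, ?_⟩, fun i => rfl⟩
  · intro a b hab
    induction a using Quotient.inductionOn with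
    | h i =>
      induction b using Quotient.inductionOn with
      | h j =>
        have h1 : valSub v (ι i) = valSub v (ι j) := congrArg Subtype.val hab
        exact Quotient.sound ((hr i j).mpr ((hconj (ι i) (ι j)).mp h1))
  · rintro ⟨O, hO⟩
    obtain ⟨ι₁, hι₁⟩ := exists_valSub_eq v hA P hP hcard O hO
    obtain ⟨i, rfl⟩ := hιbij.2 ι₁
    exact ⟨Quotient.mk r i, Subtype.ext hι₁⟩

/-- **(EO3)** Orbits of embeddings ↔ valuation subrings over `P`: for a `G`-equivariant injective
family `ι : I → (L →ₐ[B] E)` of `[L : B]` embeddings, `i ↦ valSub v (ι i)` induces a bijection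
from the `G`-orbits on `I` onto the valuation subrings of `L` over `P`. -/
theorem exists_bijective_orbit {I : Type*} [MulAction G I] (ι : I → (L →ₐ[B] E))
    (hι : Function.Injective ι)
    (hequiv : ∀ (g : G) (i : I) (y : L), ι (g • i) y = g • ι i y)
    (hcardI : Nat.card I = Module.finrank B L)
    (hv : ∀ (g : G) (x : E), v (g • x) = v x)
    (hfix : ∀ (g : G) (b : B), g • algebraMap B E b = algebraMap B E b)
    (hdense : ∀ c : E, (∀ g : G, g • c = c) → ∀ ε : Γ₀, ε ≠ 0 →
      ∃ b : B, v (c - algebraMap B E b) < ε)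
    (x₀ : B) (hx₀ : v (algebraMap B E x₀) ≠ 0)
    (hx₀' : ∀ δ : Γ₀, δ ≠ 0 → ∃ m : ℕ, v (algebraMap B E x₀) ^ m < δ)
    (hA : ∀ a : A, v (algebraMap B E (algebraMap A B a)) ≤ 1)
    (P : Ideal A) [P.IsMaximal] (hP : ∀ a ∈ P, v (algebraMap B E (algebraMap A B a)) < 1) :
    ∃ f : MulAction.orbitRel.Quotient G I → {O : ValuationSubring L // IsOver P O},
      Function.Bijective f ∧
        ∀ i : I, (f (Quotient.mk'' i) : ValuationSubring L) = valSub v (ι i) := by
  refine exists_bijective_quotient v (MulAction.orbitRel G I) ι hι (fun i i' => ?_) hcardI hv hfix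
    hdense x₀ hx₀ hx₀' hA P hP
  rw [MulAction.orbitRel_apply]
  constructor
  · rintro ⟨g, hg⟩
    refine ⟨g⁻¹, fun y => ?_⟩
    rw [← hequiv, ← hg, inv_smul_smul]
  · rintro ⟨g, hg⟩
    have h2 : ι i' = ι (g • i) := by
      ext y
      rw [hequiv, hg]
    refine ⟨g⁻¹, ?_⟩
    show g⁻¹ • i' = i
    rw [hι h2, inv_smul_smul]

/-- **(EO3), cardinality form.** -/
theorem card_isOver_eq_card_orbits {I : Type*} [MulAction G I] (ι : I → (L →ₐ[B] E))
    (hι : Function.Injective ι)
    (hequiv : ∀ (g : G) (i : I) (y : L), ι (g • i) y = g • ι i y)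
    (hcardI : Nat.card I = Module.finrank B L)
    (hv : ∀ (g : G) (x : E), v (g • x) = v x)
    (hfix : ∀ (g : G) (b : B), g • algebraMap B E b = algebraMap B E b)
    (hdense : ∀ c : E, (∀ g : G, g • c = c) → ∀ ε : Γ₀, ε ≠ 0 →
      ∃ b : B, v (c - algebraMap B E b) < ε)
    (x₀ : B) (hx₀ : v (algebraMap B E x₀) ≠ 0)
    (hx₀' : ∀ δ : Γ₀, δ ≠ 0 → ∃ m : ℕ, v (algebraMap B E x₀) ^ m < δ)
    (hA : ∀ a : A, v (algebraMap B E (algebraMap A B a)) ≤ 1)
    (P : Ideal A) [P.IsMaximal] (hP : ∀ a ∈ P, v (algebraMap B E (algebraMap A B a)) < 1) :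
    Nat.card {O : ValuationSubring L // IsOver P O} =
      Nat.card (MulAction.orbitRel.Quotient G I) := by
  obtain ⟨f, hf, -⟩ := exists_bijective_orbit v ι hι hequiv hcardI hv hfix hdense x₀ hx₀ hx₀'
    hA P hP
  exact (Nat.card_eq_of_bijective f hf).symm

end Count

end Fermat.Agent.Lib.EmbOrbit
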