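import Mathlib
import Fermat.Prelude.Def_AlgebraicCurve_DivisorClassGroup
import Fermat.Agent.Lib.FFPlaces
import Fermat.Agent.Lib.EmbOrbit.Exhaust

/-!
# Places over a point of the `x`-line ↔ orbits of embeddings (Prelude `Place` vocabulary)

`F / K` a field extension, `x : F` transcendental with `F / K(x)` finite separable.  Given a valued
field `(E, v)` with a finite group `G` of `v`-preserving automorphisms and a `G`-equivariant family
of `[F : K(x)]` distinct `K`-embeddings `ι i : F → E` which all send `x` to the same element `X₀`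
with `v (X₀ - a) < 1`, the places of `F` at which `x - a` vanishes correspond bijectively to the
`G`-orbits on the index set, provided `K[X₀ - a, (X₀ - a)⁻¹]` is dense in the fixed field `E^G`.
-/

set_option autoImplicit false

open Polynomial AlgebraicCurve IntermediateField IntermediateField.algebraAdjoinAdjoin

namespace Fermat.Agent.Lib.EmbOrbit

open Fermat.Agent.Lib

section Nonunits

variable {F : Type*} [Field F]

/-- A nonzero element is a non-unit of a valuation subring iff it lies in it but its inverse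
does not. -/
theorem mem_nonunits_iff_mem_and_inv_notMem (O : ValuationSubring F) {y : F} (hy : y ≠ 0) :
    y ∈ O.nonunits ↔ y ∈ O ∧ y⁻¹ ∉ O := by
  have h0 : 0 < O.valuation y := zero_lt_iff.mpr ((Valuation.ne_zero_iff _).mpr hy)
  rw [ValuationSubring.mem_nonunits_iff, ← O.valuation_le_one_iff, ← O.valuation_le_one_iff,
    map_inv₀, inv_le_one₀ h0, not_le]
  exact ⟨fun h => ⟨h.le, h⟩, fun h => h.2⟩

end Nonunits

section PlaceIsOver

variable {K F : Type*} [Field K] [Field F] [Algebra K F] {x : F}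

/-- The places at which `x - a` vanishes are the valuation subrings over the ideal `(x - a)` of
`K[x]`. -/
theorem isOver_toValuationSubring_iff (hxt : Transcendental K x) (a : K) (w : Place K F) :
    IsOver (A := FFPlaces.polyRing K x) (Ideal.span {FFPlaces.xSub K x a}) w.toValuationSubring ↔
      0 < w.ord (x - algebraMap K F a) := by
  have hne := FFPlaces.sub_algebraMap_ne_zero hxt a
  rw [FFPlaces.ord_pos_iff w hne, ← mem_nonunits_iff_mem_and_inv_notMem _ hne]
  constructor
  · intro h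
    exact h.2 (FFPlaces.xSub K x a) (Ideal.mem_span_singleton_self _)
  · intro h
    have hx : x ∈ w.toValuationSubring := by
      have h1 : x - algebraMap K F a ∈ w.toValuationSubring :=
        ((mem_nonunits_iff_mem_and_inv_notMem _ hne).mp h).1
      have h2 := w.toValuationSubring.add_mem _ _ h1 (w.algebraMap_mem' a)
      rwa [sub_add_cancel] at h2
    refine ⟨fun r => FFPlaces.polyRing_mem w hx r, fun r hr => ?_⟩
    obtain ⟨c, rfl⟩ := Ideal.mem_span_singleton'.mp hr
    rw [map_mul, ValuationSubring.mem_nonunits_iff, map_mul]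
    have hc : w.toValuationSubring.valuation (algebraMap (FFPlaces.polyRing K x) F c) ≤ 1 :=
      (ValuationSubring.valuation_le_one_iff _ _).mpr (FFPlaces.polyRing_mem w hx c)
    have hs : w.toValuationSubring.valuation
        (algebraMap (FFPlaces.polyRing K x) F (FFPlaces.xSub K x a)) < 1 :=
      (ValuationSubring.mem_nonunits_iff _).mp h
    calc _ ≤ 1 * w.toValuationSubring.valuation
          (algebraMap (FFPlaces.polyRing K x) F (FFPlaces.xSub K x a)) := mul_le_mul' hc le_rfl
      _ = _ := one_mul _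
      _ < 1 := hs

/-- A valuation subring over the ideal `(x - a)` of `K[x]` is (the valuation subring of) a
place. -/
theorem exists_place_of_isOver [FiniteDimensional K⟮x⟯ F] [Algebra.IsSeparable K⟮x⟯ F]
    (hxt : Transcendental K x) (a : K) (O : ValuationSubring F)
    (hO : IsOver (A := FFPlaces.polyRing K x) (Ideal.span {FFPlaces.xSub K x a}) O) :
    ∃ w : Place K F, w.toValuationSubring = O := by
  have : IsDedekindDomain (integralClosure (FFPlaces.polyRing K x) F) :=
    integralClosure.isDedekindDomain (FFPlaces.polyRing K x) K⟮x⟯ F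
  have : IsFractionRing (integralClosure (FFPlaces.polyRing K x) F) F :=
    integralClosure.isFractionRing_of_finite_extension K⟮x⟯ F
  have hne := FFPlaces.sub_algebraMap_ne_zero hxt a
  have hnu : x - algebraMap K F a ∈ O.nonunits :=
    hO.2 (FFPlaces.xSub K x a) (Ideal.mem_span_singleton_self _)
  have hOtop : O ≠ ⊤ := by
    rintro rfl
    exact ((mem_nonunits_iff_mem_and_inv_notMem _ hne).mp hnu).2 (ValuationSubring.mem_top _)
  have hR : ∀ r : integralClosure (FFPlaces.polyRing K x) F,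
      algebraMap (integralClosure (FFPlaces.polyRing K x) F) F r ∈ O := by
    intro r
    rw [← O.valuation_le_one_iff]
    exact le_one_of_isIntegralElem O.valuation (algebraMap (FFPlaces.polyRing K x) F)
      (fun b => (O.valuation_le_one_iff _).mpr (hO.1 b)) r.2
  obtain ⟨w, hw⟩ := FFPlaces.exists_heightOneSpectrum_of_le
    (R := integralClosure (FFPlaces.polyRing K x) F) O hOtop hR
  refine ⟨⟨O, fun c => ?_, hOtop, ?_⟩, rfl⟩
  · exact hO.1 (algebraMap K (FFPlaces.polyRing K x) c)
  · rw [hw]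
    exact Place.isPrincipalIdealRing_valuationSubring w

end PlaceIsOver

section Main

variable {K F : Type*} [Field K] [Field F] [Algebra K F] {x : F}
  [FiniteDimensional K⟮x⟯ F] [Algebra.IsSeparable K⟮x⟯ F]
variable {E : Type*} [Field E] [Algebra K E] {Γ₀ : Type*} [LinearOrderedCommGroupWithZero Γ₀]
  (v : Valuation E Γ₀)
variable {G : Type*} [Group G] [Fintype G] [MulSemiringAction G E]

/-- **Places over `x = a` ↔ classes of embeddings, setoid form.**  `r` is an equivalence relation
on the index set which is "conjugate under `G`"; the map `i ↦ {y | v (ι i y) ≤ 1}` induces a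
bijection from `I / r` onto the places of `F` at which `x - a` vanishes. -/
theorem exists_bijective_quotient_place (hxt : Transcendental K x) (a : K)
    {I : Type*} (r : Setoid I) (ι : I → (F →ₐ[K] E)) (hι : Function.Injective ι)
    (hr : ∀ i i' : I, r i i' ↔ ∃ g : G, ∀ y : F, ι i' y = g • ι i y)
    (hcardI : Nat.card I = Module.finrank K⟮x⟯ F)
    (X₀ : E) (hX₀ : ∀ i, ι i x = X₀)
    (hv : ∀ (g : G) (z : E), v (g • z) = v z)
    (hK : ∀ c : K, v (algebraMap K E c) ≤ 1)
    (hlt : v (X₀ - algebraMap K E a) < 1)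
    (hpow : ∀ δ : Γ₀, δ ≠ 0 → ∃ m : ℕ, v (X₀ - algebraMap K E a) ^ m < δ)
    (hfixK : ∀ (g : G) (c : K), g • algebraMap K E c = algebraMap K E c)
    (hfixX : ∀ g : G, g • X₀ = X₀)
    (hdense : ∀ c : E, (∀ g : G, g • c = c) → ∀ ε : Γ₀, ε ≠ 0 →
      ∃ z ∈ Algebra.adjoin K {X₀ - algebraMap K E a, (X₀ - algebraMap K E a)⁻¹},
        v (c - z) < ε) :
    ∃ f : Quotient r → {w : Place K F // 0 < w.ord (x - algebraMap K F a)},
      Function.Bijective f ∧ ∀ i : I, (f (Quotient.mk r i) : Place K F).toValuationSubring =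
        (v.comap (ι i : F →+* E)).valuationSubring := by
  classical
  have hpos : 0 < Nat.card I := by
    rw [hcardI]
    exact Module.finrank_pos
  obtain ⟨i₀⟩ : Nonempty I := (Nat.card_pos_iff.mp hpos).1
  -- the `K(x)`-algebra structure on `E`
  let algE : Algebra K⟮x⟯ E := ((ι i₀ : F →+* E).comp (algebraMap K⟮x⟯ F)).toAlgebra
  have halg : ∀ b : K⟮x⟯, algebraMap K⟮x⟯ E b = ι i₀ (b : F) := fun b => rfl
  -- all embeddings agree on `K(x)`
  have hagree : ∀ (i : I) (y : F), y ∈ K⟮x⟯ → ι i y = ι i₀ y := by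
    intro i y hy
    refine IntermediateField.adjoin_induction K (p := fun y _ => ι i y = ι i₀ y) ?_ ?_ ?_ ?_ ?_ hy
    · intro y hy
      rw [Set.mem_singleton_iff.mp hy, hX₀, hX₀]
    · intro c
      rw [AlgHom.commutes, AlgHom.commutes]
    · intro y z _ _ hy hz
      rw [map_add, map_add, hy, hz]
    · intro y _ hy
      rw [map_inv₀, map_inv₀, hy]
    · intro y z _ _ hy hz
      rw [map_mul, map_mul, hy, hz]
  let ιB : I → (F →ₐ[K⟮x⟯] E) := fun i =>
    { (ι i : F →+* E) with commutes' := fun b => hagree i (b : F) b.2 }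
  have hιB : ∀ i y, ιB i y = ι i y := fun i y => rfl
  have hιBinj : Function.Injective ιB := by
    intro i j hij
    apply hι
    ext y
    have := congrArg (fun σ : F →ₐ[K⟮x⟯] E => σ y) hij
    exact this
  -- `G` fixes the image of `K(x)`
  have hfix : ∀ (g : G) (b : K⟮x⟯), g • algebraMap K⟮x⟯ E b = algebraMap K⟮x⟯ E b := by
    intro g b
    rw [halg]
    refine IntermediateField.adjoin_induction K (p := fun y _ => g • ι i₀ y = ι i₀ y)
      ?_ ?_ ?_ ?_ ?_ b.2
    · intro y hy
      rw [Set.mem_singleton_iff.mp hy, hX₀, hfixX]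
    · intro c
      rw [AlgHom.commutes, hfixK]
    · intro y z _ _ hy hz
      rw [map_add, smul_add, hy, hz]
    · intro y _ hy
      rw [map_inv₀, smul_inv'', hy]
    · intro y z _ _ hy hz
      rw [map_mul, smul_mul', hy, hz]
  -- the local parameter
  have hxa_mem : x - algebraMap K F a ∈ K⟮x⟯ :=
    sub_mem (mem_adjoin_simple_self K x) (IntermediateField.algebraMap_mem _ a)
  let x₀ : K⟮x⟯ := ⟨x - algebraMap K F a, hxa_mem⟩
  have hx₀val : algebraMap K⟮x⟯ E x₀ = X₀ - algebraMap K E a := by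
    rw [halg]
    show ι i₀ (x - algebraMap K F a) = _
    rw [map_sub, hX₀, AlgHom.commutes]
  have hx₀ne : v (algebraMap K⟮x⟯ E x₀) ≠ 0 := by
    rw [halg, Valuation.ne_zero_iff]
    exact (map_ne_zero (ι i₀)).mpr (FFPlaces.sub_algebraMap_ne_zero hxt a)
  -- `v ≤ 1` on `K[x]`
  have hX₀le : v X₀ ≤ 1 := by
    have h1 : X₀ = (X₀ - algebraMap K E a) + algebraMap K E a := by ring
    rw [h1]
    exact (v.map_add _ _).trans (max_le hlt.le (hK a))
  have hpoly : ∀ y : F, y ∈ FFPlaces.polyRing K x → v (ι i₀ y) ≤ 1 := by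
    intro y hy
    refine Algebra.adjoin_induction (p := fun y _ => v (ι i₀ y) ≤ 1) ?_ ?_ ?_ ?_ hy
    · intro y hy
      rw [Set.mem_singleton_iff.mp hy, hX₀]
      exact hX₀le
    · intro c
      rw [AlgHom.commutes]
      exact hK c
    · intro y z _ _ hy hz
      rw [map_add]
      exact (v.map_add _ _).trans (max_le hy hz)
    · intro y z _ _ hy hz
      rw [map_mul, map_mul]
      exact mul_le_one' hy hz
  have hA : ∀ r : FFPlaces.polyRing K x,
      v (algebraMap K⟮x⟯ E (algebraMap (FFPlaces.polyRing K x) K⟮x⟯ r)) ≤ 1 :=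
    fun r => hpoly (r : F) r.2
  have hPmax : (Ideal.span {FFPlaces.xSub K x a}).IsMaximal := FFPlaces.isMaximal_span_xSub hxt a
  have hP : ∀ r ∈ Ideal.span {FFPlaces.xSub K x a},
      v (algebraMap K⟮x⟯ E (algebraMap (FFPlaces.polyRing K x) K⟮x⟯ r)) < 1 := by
    intro r hr
    obtain ⟨c, rfl⟩ := Ideal.mem_span_singleton'.mp hr
    have h1 : algebraMap K⟮x⟯ E (algebraMap (FFPlaces.polyRing K x) K⟮x⟯
        (c * FFPlaces.xSub K x a)) = ι i₀ (c : F) * (X₀ - algebraMap K E a) := by
      rw [halg]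
      show ι i₀ ((c : F) * (x - algebraMap K F a)) = _
      rw [map_mul, map_sub, hX₀, AlgHom.commutes]
    rw [h1, map_mul]
    calc v (ι i₀ (c : F)) * v (X₀ - algebraMap K E a)
        ≤ 1 * v (X₀ - algebraMap K E a) := mul_le_mul' (hpoly (c : F) c.2) le_rfl
      _ = v (X₀ - algebraMap K E a) := one_mul _
      _ < 1 := hlt
  -- density
  have hrange : ∀ z ∈ Algebra.adjoin K {X₀ - algebraMap K E a, (X₀ - algebraMap K E a)⁻¹},
      ∃ b : K⟮x⟯, algebraMap K⟮x⟯ E b = z := by
    intro z hz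
    refine Algebra.adjoin_induction (p := fun z _ => ∃ b : K⟮x⟯, algebraMap K⟮x⟯ E b = z)
      ?_ ?_ ?_ ?_ hz
    · intro z hz
      rcases hz with rfl | hz
      · exact ⟨x₀, hx₀val⟩
      · rw [Set.mem_singleton_iff.mp hz]
        exact ⟨x₀⁻¹, by rw [map_inv₀, hx₀val]⟩
    · intro c
      refine ⟨algebraMap K K⟮x⟯ c, ?_⟩
      rw [halg]
      exact AlgHom.commutes _ _
    · rintro y z _ _ ⟨b, rfl⟩ ⟨b', rfl⟩
      exact ⟨b + b', map_add _ _ _⟩
    · rintro y z _ _ ⟨b, rfl⟩ ⟨b', rfl⟩
      exact ⟨b * b', map_mul _ _ _⟩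
  have hdense' : ∀ c : E, (∀ g : G, g • c = c) → ∀ ε : Γ₀, ε ≠ 0 →
      ∃ b : K⟮x⟯, v (c - algebraMap K⟮x⟯ E b) < ε := by
    intro c hc ε hε
    obtain ⟨z, hz, hlt'⟩ := hdense c hc ε hε
    obtain ⟨b, rfl⟩ := hrange z hz
    exact ⟨b, hlt'⟩
  -- the abstract bijection
  obtain ⟨f, hf, hfi⟩ := exists_bijective_quotient (A := FFPlaces.polyRing K x) (B := K⟮x⟯)
    (L := F) v r ιB hιBinj (fun i i' => hr i i') hcardI hv hfix hdense' x₀ hx₀ne
    (by rw [hx₀val]; exact hpow) hA (Ideal.span {FFPlaces.xSub K x a}) hP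
  -- from valuation subrings over `(x - a)` to places
  have hex : ∀ O : {O : ValuationSubring F //
      IsOver (A := FFPlaces.polyRing K x) (Ideal.span {FFPlaces.xSub K x a}) O},
      ∃ w : Place K F, w.toValuationSubring = O.1 := fun O =>
    exists_place_of_isOver hxt a O.1 O.2
  choose ψ₀ hψ₀ using hex
  let ψ : {O : ValuationSubring F //
      IsOver (A := FFPlaces.polyRing K x) (Ideal.span {FFPlaces.xSub K x a}) O} →
      {w : Place K F // 0 < w.ord (x - algebraMap K F a)} := fun O =>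
    ⟨ψ₀ O, (isOver_toValuationSubring_iff hxt a (ψ₀ O)).mp (by rw [hψ₀ O]; exact O.2)⟩
  have hψ : Function.Bijective ψ := by
    constructor
    · intro O O' h
      apply Subtype.ext
      have h1 : ψ₀ O = ψ₀ O' := congrArg Subtype.val h
      rw [← hψ₀ O, ← hψ₀ O', h1]
    · rintro ⟨w, hw⟩
      refine ⟨⟨w.toValuationSubring, (isOver_toValuationSubring_iff hxt a w).mpr hw⟩, ?_⟩
      apply Subtype.ext
      exact Place.ext (hψ₀ _)
  refine ⟨ψ ∘ f, hψ.comp hf, fun i => ?_⟩
  show (ψ₀ (f (Quotient.mk r i))).toValuationSubring = _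
  rw [hψ₀, hfi i]
  rfl

/-- **Places over `x = a` ↔ orbits of embeddings.**  The map `i ↦ {y | v (ι i y) ≤ 1}` induces a
bijection from the `G`-orbits on `I` onto the places of `F` at which `x - a` vanishes. -/
theorem exists_bijective_orbit_place (hxt : Transcendental K x) (a : K)
    {I : Type*} [MulAction G I] (ι : I → (F →ₐ[K] E)) (hι : Function.Injective ι)
    (hequiv : ∀ (g : G) (i : I) (y : F), ι (g • i) y = g • ι i y)
    (hcardI : Nat.card I = Module.finrank K⟮x⟯ F)
    (X₀ : E) (hX₀ : ∀ i, ι i x = X₀)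
    (hv : ∀ (g : G) (z : E), v (g • z) = v z)
    (hK : ∀ c : K, v (algebraMap K E c) ≤ 1)
    (hlt : v (X₀ - algebraMap K E a) < 1)
    (hpow : ∀ δ : Γ₀, δ ≠ 0 → ∃ m : ℕ, v (X₀ - algebraMap K E a) ^ m < δ)
    (hfixK : ∀ (g : G) (c : K), g • algebraMap K E c = algebraMap K E c)
    (hfixX : ∀ g : G, g • X₀ = X₀)
    (hdense : ∀ c : E, (∀ g : G, g • c = c) → ∀ ε : Γ₀, ε ≠ 0 →
      ∃ z ∈ Algebra.adjoin K {X₀ - algebraMap K E a, (X₀ - algebraMap K E a)⁻¹},
        v (c - z) < ε) :
    ∃ f : MulAction.orbitRel.Quotient G I →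
        {w : Place K F // 0 < w.ord (x - algebraMap K F a)},
      Function.Bijective f ∧ ∀ i : I, (f (Quotient.mk'' i) : Place K F).toValuationSubring =
        (v.comap (ι i : F →+* E)).valuationSubring := by
  refine exists_bijective_quotient_place v hxt a (MulAction.orbitRel G I) ι hι (fun i i' => ?_)
    hcardI X₀ hX₀ hv hK hlt hpow hfixK hfixX hdense
  rw [MulAction.orbitRel_apply]
  constructor
  · rintro ⟨g, hg⟩
    refine ⟨g⁻¹, fun y => ?_⟩
    rw [← hequiv, ← hg, inv_smul_smul]
  · rintro ⟨g, hg⟩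
    have h2 : ι i' = ι (g • i) := by
      ext y
      rw [hequiv, hg]
    refine ⟨g⁻¹, ?_⟩
    show g⁻¹ • i' = i
    rw [hι h2, inv_smul_smul]

/-- **Places over `x = a` ↔ orbits of embeddings, cardinality form.** -/
theorem card_zeros_eq_card_orbits (hxt : Transcendental K x) (a : K)
    {I : Type*} [MulAction G I] (ι : I → (F →ₐ[K] E)) (hι : Function.Injective ι)
    (hequiv : ∀ (g : G) (i : I) (y : F), ι (g • i) y = g • ι i y)
    (hcardI : Nat.card I = Module.finrank K⟮x⟯ F)
    (X₀ : E) (hX₀ : ∀ i, ι i x = X₀)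
    (hv : ∀ (g : G) (z : E), v (g • z) = v z)
    (hK : ∀ c : K, v (algebraMap K E c) ≤ 1)
    (hlt : v (X₀ - algebraMap K E a) < 1)
    (hpow : ∀ δ : Γ₀, δ ≠ 0 → ∃ m : ℕ, v (X₀ - algebraMap K E a) ^ m < δ)
    (hfixK : ∀ (g : G) (c : K), g • algebraMap K E c = algebraMap K E c)
    (hfixX : ∀ g : G, g • X₀ = X₀)
    (hdense : ∀ c : E, (∀ g : G, g • c = c) → ∀ ε : Γ₀, ε ≠ 0 →
      ∃ z ∈ Algebra.adjoin K {X₀ - algebraMap K E a, (X₀ - algebraMap K E a)⁻¹},
        v (c - z) < ε) :
    Nat.card {w : Place K F // 0 < w.ord (x - algebraMap K F a)} =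
      Nat.card (MulAction.orbitRel.Quotient G I) := by
  obtain ⟨f, hf, -⟩ := exists_bijective_orbit_place v hxt a ι hι hequiv hcardI X₀ hX₀ hv hK hlt
    hpow hfixK hfixX hdense
  exact (Nat.card_eq_of_bijective f hf).symm

end Main

end Fermat.Agent.Lib.EmbOrbit
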