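import Mathlib
import Fermat.Prelude.Def_AlgebraicCurve_DivisorClassGroup
import Fermat.Agent.Lib.FFPlaces
import Fermat.Agent.Lib.EmbOrbit.Place

/-!
# Places over a point ↔ orbits of embeddings: the cyclic case

The group acting on the valued field `E` is generated by one ring endomorphism `σ` with
`σ^[n] = id`; the index set `I` of the embeddings carries an action of an arbitrary group `G`
(not necessarily finite, no action on `E` required) such that every `g : G` acts on the embeddings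
as a power of `σ` and every power of `σ` occurs.

* `exists_bijective_orbit_place_cyclic` / `card_zeros_eq_card_orbits_cyclic` : zeros of `x - a`;
* `exists_bijective_orbit_place_poles_cyclic` / `card_poles_eq_card_orbits_cyclic` : poles of `x`.
-/

set_option autoImplicit false

open Polynomial AlgebraicCurve IntermediateField IntermediateField.algebraAdjoinAdjoin

namespace Fermat.Agent.Lib.EmbOrbit

open Fermat.Agent.Lib

section CyclicAction

variable {E : Type*} [Semiring E]

/-- Iterates of a map of period `n` only depend on the exponent modulo `n`. -/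
theorem iterate_mod_of_period {α : Type*} (σ : α → α) (n : ℕ) (hσ : ∀ z, σ^[n] z = z) (m : ℕ)
    (z : α) : σ^[m % n] z = σ^[m] z := by
  have hid : σ^[n] = id := funext hσ
  conv_rhs => rw [← Nat.mod_add_div m n]
  rw [Function.iterate_add_apply, Function.iterate_mul, hid, Function.iterate_id]
  rfl

/-- The action of the cyclic group `Multiplicative (ZMod n)` on `E` through the iterates of a ring
endomorphism `σ` of period `n`. -/
@[reducible] noncomputable def cyclicAction (n : ℕ) [NeZero n] (σ : E →+* E)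
    (hσ : ∀ z, σ^[n] z = z) : MulSemiringAction (Multiplicative (ZMod n)) E where
  smul a z := σ^[(Multiplicative.toAdd a).val] z
  one_smul z := by
    show σ^[(0 : ZMod n).val] z = z
    rw [ZMod.val_zero]
    rfl
  mul_smul a b z := by
    show σ^[(Multiplicative.toAdd a + Multiplicative.toAdd b).val] z =
      σ^[(Multiplicative.toAdd a).val] (σ^[(Multiplicative.toAdd b).val] z)
    rw [ZMod.val_add, iterate_mod_of_period σ n hσ, Function.iterate_add_apply]
  smul_zero a := iterate_map_zero σ _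
  smul_add a y z := iterate_map_add σ _ y z
  smul_one a := iterate_map_one σ _
  smul_mul a y z := iterate_map_mul σ _ y z

theorem cyclicAction_smul (n : ℕ) [NeZero n] (σ : E →+* E) (hσ : ∀ z, σ^[n] z = z)
    (a : Multiplicative (ZMod n)) (z : E) :
    letI := cyclicAction n σ hσ
    a • z = σ^[(Multiplicative.toAdd a).val] z := rfl

theorem cyclicAction_ofAdd_natCast (n : ℕ) [NeZero n] (σ : E →+* E) (hσ : ∀ z, σ^[n] z = z)
    (k : ℕ) (z : E) :
    letI := cyclicAction n σ hσ
    (Multiplicative.ofAdd (k : ZMod n)) • z = σ^[k] z := by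
  show σ^[((k : ZMod n)).val] z = σ^[k] z
  rw [ZMod.val_natCast, iterate_mod_of_period σ n hσ]

theorem cyclicAction_fixed_iff (n : ℕ) [NeZero n] (σ : E →+* E) (hσ : ∀ z, σ^[n] z = z) (c : E) :
    letI := cyclicAction n σ hσ
    (∀ a : Multiplicative (ZMod n), a • c = c) ↔ σ c = c := by
  constructor
  · intro h
    have h1 := h (Multiplicative.ofAdd ((1 : ℕ) : ZMod n))
    rw [cyclicAction_ofAdd_natCast] at h1
    exact h1
  · intro h a
    exact Function.iterate_fixed h _

end CyclicAction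

section Main

variable {K F : Type*} [Field K] [Field F] [Algebra K F] {x : F}
  [FiniteDimensional K⟮x⟯ F] [Algebra.IsSeparable K⟮x⟯ F]
variable {E : Type*} [Field E] [Algebra K E] {Γ₀ : Type*} [LinearOrderedCommGroupWithZero Γ₀]
  (v : Valuation E Γ₀)

/-- **Places over `x = a` ↔ orbits of embeddings, cyclic form.**  `σ` is a ring endomorphism of
`E` of period `n` preserving `v`; `G` acts on the index set so that each `g` acts on the embeddings
as a power of `σ` and every power occurs.  Then `i ↦ {y | v (ι i y) ≤ 1}` induces a bijection from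
the `G`-orbits on `I` onto the places of `F` at which `x - a` vanishes. -/
theorem exists_bijective_orbit_place_cyclic (hxt : Transcendental K x) (a : K)
    (n : ℕ) [NeZero n] (σ : E →+* E) (hσ : ∀ z, σ^[n] z = z)
    {G I : Type*} [Group G] [MulAction G I] (ι : I → (F →ₐ[K] E)) (hι : Function.Injective ι)
    (h1 : ∀ (g : G) (i : I), ∃ k : ℕ, ∀ y : F, ι (g • i) y = σ^[k] (ι i y))
    (h2 : ∀ (i : I) (k : ℕ), ∃ g : G, ∀ y : F, ι (g • i) y = σ^[k] (ι i y))
    (hcardI : Nat.card I = Module.finrank K⟮x⟯ F)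
    (X₀ : E) (hX₀ : ∀ i, ι i x = X₀)
    (hv : ∀ z : E, v (σ z) = v z)
    (hK : ∀ c : K, v (algebraMap K E c) ≤ 1)
    (hlt : v (X₀ - algebraMap K E a) < 1)
    (hpow : ∀ δ : Γ₀, δ ≠ 0 → ∃ m : ℕ, v (X₀ - algebraMap K E a) ^ m < δ)
    (hdense : ∀ c : E, σ c = c → ∀ ε : Γ₀, ε ≠ 0 →
      ∃ z ∈ Algebra.adjoin K {X₀ - algebraMap K E a, (X₀ - algebraMap K E a)⁻¹},
        v (c - z) < ε) :
    ∃ f : MulAction.orbitRel.Quotient G I →
        {w : Place K F // 0 < w.ord (x - algebraMap K F a)},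
      Function.Bijective f ∧ ∀ i : I, (f (Quotient.mk'' i) : Place K F).toValuationSubring =
        (v.comap (ι i : F →+* E)).valuationSubring := by
  classical
  have hpos : 0 < Nat.card I := by
    rw [hcardI]
    exact Module.finrank_pos
  obtain ⟨i₀⟩ : Nonempty I := (Nat.card_pos_iff.mp hpos).1
  let act : MulSemiringAction (Multiplicative (ZMod n)) E := cyclicAction n σ hσ
  have hsmul : ∀ (g₀ : Multiplicative (ZMod n)) (z : E),
      g₀ • z = σ^[(Multiplicative.toAdd g₀).val] z := fun _ _ => rfl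
  -- `σ` fixes `K` and `X₀`
  obtain ⟨g₁, hg₁⟩ := h2 i₀ 1
  have hσK : ∀ c : K, σ (algebraMap K E c) = algebraMap K E c := by
    intro c
    have := hg₁ (algebraMap K F c)
    rw [AlgHom.commutes, AlgHom.commutes] at this
    exact this.symm
  have hσX : σ X₀ = X₀ := by
    have := hg₁ x
    rw [hX₀, hX₀] at this
    exact this.symm
  refine exists_bijective_quotient_place (G := Multiplicative (ZMod n)) v hxt a
    (MulAction.orbitRel G I) ι hι (fun i i' => ?_) hcardI X₀ hX₀
    (fun g₀ z => ?_) hK hlt hpow (fun g₀ c => ?_) (fun g₀ => ?_) (fun c hc => ?_)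
  · rw [MulAction.orbitRel_apply]
    constructor
    · rintro ⟨g, hg⟩
      obtain ⟨k, hk⟩ := h1 g⁻¹ i
      refine ⟨Multiplicative.ofAdd (k : ZMod n), fun y => ?_⟩
      rw [cyclicAction_ofAdd_natCast, ← hk, ← hg, inv_smul_smul]
    · rintro ⟨g₀, hg₀⟩
      obtain ⟨g, hg⟩ := h2 i (Multiplicative.toAdd g₀).val
      have h3 : ι i' = ι (g • i) := by
        ext y
        rw [hg, hg₀ y, hsmul]
      refine ⟨g⁻¹, ?_⟩
      show g⁻¹ • i' = i
      rw [hι h3, inv_smul_smul]
  · rw [hsmul]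
    generalize (Multiplicative.toAdd g₀).val = k
    induction k with
    | zero => rfl
    | succ k ih => rw [Function.iterate_succ_apply', hv, ih]
  · rw [hsmul]
    exact Function.iterate_fixed (hσK c) _
  · rw [hsmul]
    exact Function.iterate_fixed hσX _
  · exact hdense c ((cyclicAction_fixed_iff n σ hσ c).mp hc)

/-- **Places over `x = a` ↔ orbits of embeddings, cyclic form, cardinality.** -/
theorem card_zeros_eq_card_orbits_cyclic (hxt : Transcendental K x) (a : K)
    (n : ℕ) [NeZero n] (σ : E →+* E) (hσ : ∀ z, σ^[n] z = z)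
    {G I : Type*} [Group G] [MulAction G I] (ι : I → (F →ₐ[K] E)) (hι : Function.Injective ι)
    (h1 : ∀ (g : G) (i : I), ∃ k : ℕ, ∀ y : F, ι (g • i) y = σ^[k] (ι i y))
    (h2 : ∀ (i : I) (k : ℕ), ∃ g : G, ∀ y : F, ι (g • i) y = σ^[k] (ι i y))
    (hcardI : Nat.card I = Module.finrank K⟮x⟯ F)
    (X₀ : E) (hX₀ : ∀ i, ι i x = X₀)
    (hv : ∀ z : E, v (σ z) = v z)
    (hK : ∀ c : K, v (algebraMap K E c) ≤ 1)
    (hlt : v (X₀ - algebraMap K E a) < 1)
    (hpow : ∀ δ : Γ₀, δ ≠ 0 → ∃ m : ℕ, v (X₀ - algebraMap K E a) ^ m < δ)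
    (hdense : ∀ c : E, σ c = c → ∀ ε : Γ₀, ε ≠ 0 →
      ∃ z ∈ Algebra.adjoin K {X₀ - algebraMap K E a, (X₀ - algebraMap K E a)⁻¹},
        v (c - z) < ε) :
    Nat.card {w : Place K F // 0 < w.ord (x - algebraMap K F a)} =
      Nat.card (MulAction.orbitRel.Quotient G I) := by
  obtain ⟨f, hf, -⟩ := exists_bijective_orbit_place_cyclic v hxt a n σ hσ ι hι h1 h2 hcardI X₀
    hX₀ hv hK hlt hpow hdense
  exact (Nat.card_eq_of_bijective f hf).symm

/-- Separability only depends on the intermediate field as a set. -/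
theorem isSeparable_of_intermediateField_eq {E₁ E₂ : IntermediateField K F} (h : E₁ = E₂)
    [hE : Algebra.IsSeparable E₁ F] : Algebra.IsSeparable E₂ F := by
  subst h
  exact hE

/-- **Poles of `x` ↔ orbits of embeddings, cyclic form.**  As
`exists_bijective_orbit_place_cyclic`, for the places at which `x` has a pole: the common image
`X₀` of `x` has `v X₀ > 1`. -/
theorem exists_bijective_orbit_place_poles_cyclic (hxt : Transcendental K x)
    (n : ℕ) [NeZero n] (σ : E →+* E) (hσ : ∀ z, σ^[n] z = z)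
    {G I : Type*} [Group G] [MulAction G I] (ι : I → (F →ₐ[K] E)) (hι : Function.Injective ι)
    (h1 : ∀ (g : G) (i : I), ∃ k : ℕ, ∀ y : F, ι (g • i) y = σ^[k] (ι i y))
    (h2 : ∀ (i : I) (k : ℕ), ∃ g : G, ∀ y : F, ι (g • i) y = σ^[k] (ι i y))
    (hcardI : Nat.card I = Module.finrank K⟮x⟯ F)
    (X₀ : E) (hX₀ : ∀ i, ι i x = X₀)
    (hv : ∀ z : E, v (σ z) = v z)
    (hK : ∀ c : K, v (algebraMap K E c) ≤ 1)
    (hgt : 1 < v X₀)
    (hpow : ∀ δ : Γ₀, δ ≠ 0 → ∃ m : ℕ, (v X₀)⁻¹ ^ m < δ)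
    (hdense : ∀ c : E, σ c = c → ∀ ε : Γ₀, ε ≠ 0 →
      ∃ z ∈ Algebra.adjoin K {X₀, X₀⁻¹}, v (c - z) < ε) :
    ∃ f : MulAction.orbitRel.Quotient G I → {w : Place K F // w.ord x < 0},
      Function.Bijective f ∧ ∀ i : I, (f (Quotient.mk'' i) : Place K F).toValuationSubring =
        (v.comap (ι i : F →+* E)).valuationSubring := by
  have hfd : FiniteDimensional K⟮x⁻¹⟯ F :=
    FFPlaces.finiteDimensional_of_eq (FFPlaces.adjoin_inv (K := K) x).symm
  have hsep : Algebra.IsSeparable K⟮x⁻¹⟯ F :=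
    isSeparable_of_intermediateField_eq (FFPlaces.adjoin_inv (K := K) x).symm
  have hcardI' : Nat.card I = Module.finrank K⟮x⁻¹⟯ F := by
    rw [hcardI]
    exact FFPlaces.finrank_of_eq (FFPlaces.adjoin_inv (K := K) x).symm
  have hlt : v (X₀⁻¹ - algebraMap K E 0) < 1 := by
    rw [map_zero, sub_zero, map_inv₀]
    exact inv_lt_one_of_one_lt₀ hgt
  have hpow' : ∀ δ : Γ₀, δ ≠ 0 → ∃ m : ℕ, v (X₀⁻¹ - algebraMap K E 0) ^ m < δ := by
    intro δ hδ
    rw [map_zero, sub_zero, map_inv₀]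
    exact hpow δ hδ
  have hdense' : ∀ c : E, σ c = c → ∀ ε : Γ₀, ε ≠ 0 →
      ∃ z ∈ Algebra.adjoin K {X₀⁻¹ - algebraMap K E 0, (X₀⁻¹ - algebraMap K E 0)⁻¹},
        v (c - z) < ε := by
    intro c hc ε hε
    obtain ⟨z, hz, hzlt⟩ := hdense c hc ε hε
    refine ⟨z, ?_, hzlt⟩
    rw [map_zero, sub_zero, inv_inv, Set.pair_comm]
    exact hz
  obtain ⟨f, hf, hfi⟩ := exists_bijective_orbit_place_cyclic (x := x⁻¹) v
    (FFPlaces.transcendental_inv hxt) 0 n σ hσ ι hι h1 h2 hcardI' X₀⁻¹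
    (fun i => by rw [map_inv₀, hX₀]) hv hK hlt hpow' hdense'
  let e : {w : Place K F // 0 < w.ord (x⁻¹ - algebraMap K F 0)} ≃
      {w : Place K F // w.ord x < 0} :=
    Equiv.subtypeEquivRight (fun w => by
      rw [map_zero, sub_zero, Place.ord_inv]
      omega)
  exact ⟨e ∘ f, e.bijective.comp hf, fun i => hfi i⟩

/-- **Poles of `x` ↔ orbits of embeddings, cyclic form, cardinality.** -/
theorem card_poles_eq_card_orbits_cyclic (hxt : Transcendental K x)
    (n : ℕ) [NeZero n] (σ : E →+* E) (hσ : ∀ z, σ^[n] z = z)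
    {G I : Type*} [Group G] [MulAction G I] (ι : I → (F →ₐ[K] E)) (hι : Function.Injective ι)
    (h1 : ∀ (g : G) (i : I), ∃ k : ℕ, ∀ y : F, ι (g • i) y = σ^[k] (ι i y))
    (h2 : ∀ (i : I) (k : ℕ), ∃ g : G, ∀ y : F, ι (g • i) y = σ^[k] (ι i y))
    (hcardI : Nat.card I = Module.finrank K⟮x⟯ F)
    (X₀ : E) (hX₀ : ∀ i, ι i x = X₀)
    (hv : ∀ z : E, v (σ z) = v z)
    (hK : ∀ c : K, v (algebraMap K E c) ≤ 1)
    (hgt : 1 < v X₀)
    (hpow : ∀ δ : Γ₀, δ ≠ 0 → ∃ m : ℕ, (v X₀)⁻¹ ^ m < δ)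
    (hdense : ∀ c : E, σ c = c → ∀ ε : Γ₀, ε ≠ 0 →
      ∃ z ∈ Algebra.adjoin K {X₀, X₀⁻¹}, v (c - z) < ε) :
    Nat.card {w : Place K F // w.ord x < 0} = Nat.card (MulAction.orbitRel.Quotient G I) := by
  obtain ⟨f, hf, -⟩ := exists_bijective_orbit_place_poles_cyclic v hxt n σ hσ ι hι h1 h2 hcardI
    X₀ hX₀ hv hK hgt hpow hdense
  exact (Nat.card_eq_of_bijective f hf).symm

end Main

end Fermat.Agent.Lib.EmbOrbit
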