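import Mathlib
import Fermat.Prelude.Def_AlgebraicCurve_DivisorClassGroup
import Fermat.Agent.Lib.FFPlaces
import Fermat.Agent.Lib.EmbOrbit.Cyclic

/-!
# Places over a point ↔ orbits of embeddings into Laurent series

`E = K((t))` with the `t`-adic valuation and the twist `t ↦ ζ t` by a primitive `n`-th root of
unity `ζ ∈ K`.  The fixed field of the twist is `K((tⁿ))`, in which `K[Y, Y⁻¹]` is dense for every
fixed `Y` of order `n`.  Consequently, for a family of `[F : K(x)]` distinct embeddings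
`ι i : F → K((t))` sending `x` to a common series `X₀ ∈ K((tⁿ))` of order `-n` (resp. with
`X₀ - a` of order `n`), on whose index set a group `G` acts through the powers of the twist, the
poles of `x` (resp. the zeros of `x - a`) correspond to the `G`-orbits.

* `twist ζ hζ : LaurentSeries K →+* LaurentSeries K`, `twist_coeff`, `iterate_twist_coeff`;
* `exists_bijective_orbit_place_poles_laurent`, `card_poles_eq_card_orbits_laurent`;
* `exists_bijective_orbit_place_zeros_laurent`, `card_zeros_eq_card_orbits_laurent`.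
-/

set_option autoImplicit false

open Polynomial AlgebraicCurve IntermediateField HahnSeries WithZero

namespace Fermat.Agent.Lib.EmbOrbit

open Fermat.Agent.Lib

section Twist

variable {K : Type*} [Field K]

/-- The twist `t ↦ ζ t` of a Laurent series: the `m`-th coefficient is multiplied by `ζ ^ m`. -/
noncomputable def twistFun (ζ : K) (f : LaurentSeries K) : LaurentSeries K where
  coeff m := ζ ^ m * f.coeff m
  isPWO_support' := f.isPWO_support.mono (fun m hm => by
    rw [Function.mem_support] at hm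
    rw [HahnSeries.mem_support]
    exact right_ne_zero_of_mul hm)

@[simp] theorem twistFun_coeff (ζ : K) (f : LaurentSeries K) (m : ℤ) :
    (twistFun ζ f).coeff m = ζ ^ m * f.coeff m := rfl

theorem mem_support_twistFun {ζ : K} (hζ : ζ ≠ 0) (f : LaurentSeries K) (m : ℤ) :
    m ∈ (twistFun ζ f).support ↔ m ∈ f.support := by
  rw [HahnSeries.mem_support, HahnSeries.mem_support, twistFun_coeff]
  exact ⟨right_ne_zero_of_mul, fun h => mul_ne_zero (zpow_ne_zero m hζ) h⟩

theorem twistFun_mul {ζ : K} (hζ : ζ ≠ 0) (f g : LaurentSeries K) :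
    twistFun ζ (f * g) = twistFun ζ f * twistFun ζ g := by
  ext a
  rw [twistFun_coeff, HahnSeries.coeff_mul, HahnSeries.coeff_mul, Finset.mul_sum]
  refine Finset.sum_congr ?_ ?_
  · ext ij
    simp only [Finset.mem_antidiagonal, mem_support_twistFun hζ]
  · intro ij hij
    have hsum : ij.1 + ij.2 = a := (Finset.mem_antidiagonal.mp hij).2.2
    rw [twistFun_coeff, twistFun_coeff, ← hsum, zpow_add₀ hζ]
    ring

/-- The twist `t ↦ ζ t` as a ring endomorphism of `K((t))`. -/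
noncomputable def twist (ζ : K) (hζ : ζ ≠ 0) : LaurentSeries K →+* LaurentSeries K where
  toFun := twistFun ζ
  map_one' := by
    ext m
    rw [twistFun_coeff, HahnSeries.coeff_one]
    split_ifs with h
    · rw [h, zpow_zero, mul_one]
    · rw [mul_zero]
  map_mul' := twistFun_mul hζ
  map_zero' := by
    ext m
    rw [twistFun_coeff, HahnSeries.coeff_zero, mul_zero]
  map_add' f g := by
    ext m
    rw [twistFun_coeff, HahnSeries.coeff_add, HahnSeries.coeff_add, twistFun_coeff, twistFun_coeff,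
      mul_add]

theorem twist_coeff (ζ : K) (hζ : ζ ≠ 0) (f : LaurentSeries K) (m : ℤ) :
    (twist ζ hζ f).coeff m = ζ ^ m * f.coeff m := rfl

theorem iterate_twist_coeff (ζ : K) (hζ : ζ ≠ 0) (k : ℕ) (f : LaurentSeries K) (m : ℤ) :
    ((twist ζ hζ)^[k] f).coeff m = ζ ^ ((k : ℤ) * m) * f.coeff m := by
  induction k with
  | zero => simp
  | succ k ih =>
    rw [Function.iterate_succ_apply', twist_coeff, ih, ← mul_assoc, ← zpow_add₀ hζ]
    congr 2
    push_cast
    ring

theorem iterate_twist_of_pow_eq_one {ζ : K} (hζ : ζ ≠ 0) {n : ℕ} (h : ζ ^ n = 1)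
    (f : LaurentSeries K) : (twist ζ hζ)^[n] f = f := by
  ext m
  rw [iterate_twist_coeff, zpow_mul, zpow_natCast, h, one_zpow, one_mul]

theorem twist_algebraMap (ζ : K) (hζ : ζ ≠ 0) (c : K) :
    twist ζ hζ (algebraMap K (LaurentSeries K) c) = algebraMap K (LaurentSeries K) c := by
  ext m
  rw [twist_coeff, LaurentSeries.algebraMap_apply, HahnSeries.C_apply, HahnSeries.coeff_single]
  split_ifs with h
  · rw [h, zpow_zero, one_mul]
  · rw [mul_zero]

/-- The fixed points of the twist by a primitive `n`-th root of unity are the series in `tⁿ`. -/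
theorem twist_eq_self_iff {ζ : K} {n : ℕ} (hζ : IsPrimitiveRoot ζ n) (hζ0 : ζ ≠ 0)
    (c : LaurentSeries K) :
    twist ζ hζ0 c = c ↔ ∀ m : ℤ, ¬ (n : ℤ) ∣ m → c.coeff m = 0 := by
  constructor
  · intro h m hm
    have h1 : ζ ^ m * c.coeff m = c.coeff m := by
      have := congrArg (fun f : LaurentSeries K => f.coeff m) h
      exact this
    by_contra hc
    have h2 : (ζ ^ m - 1) * c.coeff m = 0 := by rw [sub_mul, h1, one_mul, sub_self]
    rcases mul_eq_zero.mp h2 with h3 | h3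
    · exact hm ((hζ.zpow_eq_one_iff_dvd m).mp (sub_eq_zero.mp h3))
    · exact hc h3
  · intro h
    ext m
    rw [twist_coeff]
    by_cases hm : (n : ℤ) ∣ m
    · rw [(hζ.zpow_eq_one_iff_dvd m).mpr hm, one_mul]
    · rw [h m hm, mul_zero]

end Twist

section Val

variable {K : Type*} [Field K]

/-- Comparison of the `t`-adic valuations from the vanishing of coefficients. -/
theorem valuation_le_of_coeff (f g : LaurentSeries K)
    (h : ∀ m : ℤ, g.coeff m = 0 → f.coeff m = 0) :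
    (Valued.v f : ℤᵐ⁰) ≤ Valued.v g := by
  by_cases hg : g = 0
  · have hf : f = 0 := by
      ext m
      exact h m (by rw [hg]; rfl)
    rw [hf, hg]
  · have hvg : (Valued.v g : ℤᵐ⁰) ≠ 0 := (Valuation.ne_zero_iff _).mpr hg
    have h1 : (Valued.v g : ℤᵐ⁰) = exp (-(-(log (Valued.v g)))) := by
      rw [neg_neg, exp_log hvg]
    have h2 := (LaurentSeries.valuation_le_iff_coeff_lt_eq_zero K).mp h1.le
    rw [h1]
    exact (LaurentSeries.valuation_le_iff_coeff_lt_eq_zero K).mpr fun m hm => h m (h2 m hm)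

theorem valuation_twist (ζ : K) (hζ : ζ ≠ 0) (f : LaurentSeries K) :
    (Valued.v (twist ζ hζ f) : ℤᵐ⁰) = Valued.v f := by
  refine le_antisymm (valuation_le_of_coeff _ _ fun m h => ?_)
    (valuation_le_of_coeff _ _ fun m h => ?_)
  · rw [twist_coeff, h, mul_zero]
  · rw [twist_coeff] at h
    exact (mul_eq_zero.mp h).resolve_left (zpow_ne_zero m hζ)

theorem valuation_algebraMap_le_one (c : K) :
    (Valued.v (algebraMap K (LaurentSeries K) c) : ℤᵐ⁰) ≤ 1 := by
  have h : (Valued.v (algebraMap K (LaurentSeries K) c) : ℤᵐ⁰) ≤ exp (-(0 : ℤ)) := by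
    refine (LaurentSeries.valuation_le_iff_coeff_lt_eq_zero K).mpr fun m hm => ?_
    rw [LaurentSeries.algebraMap_apply, HahnSeries.C_apply]
    exact HahnSeries.coeff_single_of_ne hm.ne
  rwa [neg_zero, exp_zero] at h

theorem valuation_le_one_iff (f : LaurentSeries K) :
    (Valued.v f : ℤᵐ⁰) ≤ 1 ↔ ∀ m : ℤ, m < 0 → f.coeff m = 0 := by
  have h := LaurentSeries.valuation_le_iff_coeff_lt_eq_zero K (D := 0) (f := f)
  rwa [neg_zero, exp_zero] at h

theorem valuation_eq_exp_neg_order {f : LaurentSeries K} (hf : f ≠ 0) :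
    (Valued.v f : ℤᵐ⁰) = exp (-f.order) := by
  refine le_antisymm ((LaurentSeries.valuation_le_iff_coeff_lt_eq_zero K).mpr fun m hm =>
    HahnSeries.coeff_eq_zero_of_lt_order hm) ?_
  have hvf : (Valued.v f : ℤᵐ⁰) ≠ 0 := (Valuation.ne_zero_iff _).mpr hf
  rw [← exp_log hvf, exp_le_exp]
  by_contra hcon
  have h1 : log (Valued.v f : ℤᵐ⁰) ≤ -(f.order + 1) := by
    have := not_le.mp hcon
    omega
  have h2 : (Valued.v f : ℤᵐ⁰) ≤ exp (-(f.order + 1)) := by
    rw [← exp_log hvf, exp_le_exp]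
    exact h1
  have h3 := (LaurentSeries.valuation_le_iff_coeff_lt_eq_zero K).mp h2 f.order (by omega)
  exact (HahnSeries.leadingCoeff_ne_zero.mpr hf) (by rw [HahnSeries.leadingCoeff_eq]; exact h3)

/-- Integer powers of `Y` lie in `K[Y, Y⁻¹]`. -/
theorem zpow_mem_adjoin_pair {A : Type*} [Field A] [Algebra K A] (Y : A) (k : ℤ) :
    Y ^ k ∈ Algebra.adjoin K {Y, Y⁻¹} := by
  have hY : Y ∈ Algebra.adjoin K {Y, Y⁻¹} := Algebra.subset_adjoin (Set.mem_insert _ _)
  have hYi : Y⁻¹ ∈ Algebra.adjoin K {Y, Y⁻¹} :=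
    Algebra.subset_adjoin (Set.mem_insert_of_mem _ rfl)
  rcases Int.eq_nat_or_neg k with ⟨j, rfl | rfl⟩
  · rw [zpow_natCast]
    exact Subalgebra.pow_mem _ hY j
  · rw [zpow_neg, zpow_natCast, ← inv_pow]
    exact Subalgebra.pow_mem _ hYi j

/-- **Density.**  If `Y` is fixed by the twist and has valuation `exp (-n)`, every series fixed
by the twist is approximated to any order by elements of `K[Y, Y⁻¹]`. -/
theorem exists_mem_adjoin_coeff_eq_zero {ζ : K} {n : ℕ} (hn : 0 < n) (hζ : IsPrimitiveRoot ζ n)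
    (hζ0 : ζ ≠ 0) (Y : LaurentSeries K) (hYv : (Valued.v Y : ℤᵐ⁰) = exp (-(n : ℤ)))
    (hYfix : twist ζ hζ0 Y = Y) (N : ℤ) (d : ℕ) :
    ∀ c : LaurentSeries K, twist ζ hζ0 c = c → (∀ m : ℤ, m < N - d * n → c.coeff m = 0) →
      ∃ z ∈ Algebra.adjoin K {Y, Y⁻¹}, ∀ m : ℤ, m < N → (c - z).coeff m = 0 := by
  have hn' : (0 : ℤ) < n := by exact_mod_cast hn
  induction d with
  | zero =>
    intro c _ hc
    refine ⟨0, Subalgebra.zero_mem _, fun m hm => ?_⟩
    rw [sub_zero]
    exact hc m (by simpa using hm)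
  | succ d ih =>
    intro c hcfix hc
    -- the unique multiple `n * k` of `n` in `[M, M + n)`, `M = N - (d + 1) * n`
    set M : ℤ := N - ((d + 1 : ℕ) : ℤ) * n with hM
    set k : ℤ := (M + n - 1) / n with hk
    have hk1 : M ≤ n * k := by
      have h1 := Int.emod_add_mul_ediv (M + n - 1) n
      have h2 := Int.emod_lt_of_pos (M + n - 1) hn'
      rw [← hk] at h1
      linarith
    have hk2 : n * k < M + n := by
      have h1 := Int.emod_add_mul_ediv (M + n - 1) n
      have h2 := Int.emod_nonneg (M + n - 1) hn'.ne'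
      rw [← hk] at h1
      linarith
    -- the monomial `u = Y ^ k`
    set u : LaurentSeries K := Y ^ k with hu
    have hufix : twist ζ hζ0 u = u := by rw [hu, map_zpow₀, hYfix]
    have huv : (Valued.v u : ℤᵐ⁰) = exp (-((n : ℤ) * k)) := by
      rw [hu, map_zpow₀, hYv, ← exp_zsmul]
      congr 1
      rw [smul_eq_mul]
      ring
    have hu1 : ∀ m : ℤ, m < n * k → u.coeff m = 0 :=
      (LaurentSeries.valuation_le_iff_coeff_lt_eq_zero K).mp huv.le
    have hu2 : u.coeff (n * k) ≠ 0 := by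
      intro h0
      have h1 : (Valued.v u : ℤᵐ⁰) ≤ exp (-((n : ℤ) * k + 1)) := by
        refine (LaurentSeries.valuation_le_iff_coeff_lt_eq_zero K).mpr fun m hm => ?_
        rcases lt_or_eq_of_le (Int.lt_add_one_iff.mp hm) with h | h
        · exact hu1 m h
        · rw [h]; exact h0
      rw [huv, exp_le_exp] at h1
      omega
    -- the corrected series
    set b : K := c.coeff (n * k) / u.coeff (n * k) with hb
    set c' : LaurentSeries K := c - algebraMap K (LaurentSeries K) b * u with hc'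
    have hc'coeff : ∀ m : ℤ, c'.coeff m = c.coeff m - b * u.coeff m := by
      intro m
      rw [hc', HahnSeries.coeff_sub, LaurentSeries.algebraMap_apply, HahnSeries.C_mul_eq_smul,
        HahnSeries.coeff_smul, smul_eq_mul]
    have hc'fix : twist ζ hζ0 c' = c' := by
      rw [hc', map_sub, map_mul, hcfix, hufix, twist_algebraMap]
    have hc'van : ∀ m : ℤ, m < N - d * n → c'.coeff m = 0 := by
      intro m hm
      have hmM : m < M + n := by
        rw [hM]
        push_cast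
        linarith
      by_cases hdvd : (n : ℤ) ∣ m
      · by_cases hmk : m = n * k
        · rw [hc'coeff, hmk, hb, div_mul_cancel₀ _ hu2, sub_self]
        · have hlt : m < M := by
            obtain ⟨j, rfl⟩ := hdvd
            by_contra hge
            have hge' : M ≤ n * j := not_lt.mp hge
            have hjk : j ≠ k := fun h => hmk (by rw [h])
            rcases lt_or_gt_of_ne hjk with h | h
            · have : (n : ℤ) * (j + 1) ≤ n * k := mul_le_mul_of_nonneg_left (by omega) hn'.le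
              linarith
            · have : (n : ℤ) * (k + 1) ≤ n * j := mul_le_mul_of_nonneg_left (by omega) hn'.le
              linarith
          rw [hc'coeff, hc m hlt, hu1 m (lt_of_lt_of_le hlt hk1), mul_zero, sub_zero]
      · exact (twist_eq_self_iff hζ hζ0 c').mp hc'fix m hdvd
    obtain ⟨z', hz', hz'c⟩ := ih c' hc'fix hc'van
    refine ⟨z' + algebraMap K (LaurentSeries K) b * u,
      Subalgebra.add_mem _ hz' (Subalgebra.mul_mem _ (Subalgebra.algebraMap_mem _ b)
        (zpow_mem_adjoin_pair Y k)), fun m hm => ?_⟩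
    have : c - (z' + algebraMap K (LaurentSeries K) b * u) = c' - z' := by
      rw [hc']
      ring
    rw [this]
    exact hz'c m hm

/-- **Density, valuation form.** -/
theorem exists_mem_adjoin_valuation_lt {ζ : K} {n : ℕ} (hn : 0 < n) (hζ : IsPrimitiveRoot ζ n)
    (hζ0 : ζ ≠ 0) (Y : LaurentSeries K) (hYv : (Valued.v Y : ℤᵐ⁰) = exp (-(n : ℤ)))
    (hYfix : twist ζ hζ0 Y = Y) (c : LaurentSeries K) (hc : twist ζ hζ0 c = c)
    (ε : ℤᵐ⁰) (hε : ε ≠ 0) :
    ∃ z ∈ Algebra.adjoin K {Y, Y⁻¹}, (Valued.v (c - z) : ℤᵐ⁰) < ε := by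
  have hn' : (0 : ℤ) < n := by exact_mod_cast hn
  obtain ⟨e, rfl⟩ : ∃ e : ℤ, ε = exp e := ⟨log ε, (exp_log hε).symm⟩
  set N : ℤ := 1 - e with hN
  -- a lower bound for the support of `c`
  obtain ⟨M, hM⟩ : ∃ M : ℤ, ∀ m : ℤ, m < M → c.coeff m = 0 :=
    ⟨c.order, fun m hm => HahnSeries.coeff_eq_zero_of_lt_order hm⟩
  obtain ⟨z, hz, hzc⟩ := exists_mem_adjoin_coeff_eq_zero hn hζ hζ0 Y hYv hYfix N (N - M).toNat c hc
    (fun m hm => hM m (by
      have h1 : N - M ≤ ((N - M).toNat : ℤ) := Int.self_le_toNat _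
      have h2 : ((N - M).toNat : ℤ) ≤ ((N - M).toNat : ℤ) * n :=
        le_mul_of_one_le_right (Int.natCast_nonneg _) (by omega)
      linarith))
  refine ⟨z, hz, ?_⟩
  have h1 : (Valued.v (c - z) : ℤᵐ⁰) ≤ exp (-N) :=
    (LaurentSeries.valuation_le_iff_coeff_lt_eq_zero K).mpr hzc
  refine lt_of_le_of_lt h1 ?_
  rw [exp_lt_exp, hN]
  omega

theorem exists_pow_lt_of_valuation_eq {n : ℕ} (hn : 0 < n) (ρ : ℤᵐ⁰) (hρ : ρ = exp (-(n : ℤ)))
    (δ : ℤᵐ⁰) (hδ : δ ≠ 0) : ∃ m : ℕ, ρ ^ m < δ := by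
  have hn' : (0 : ℤ) < n := by exact_mod_cast hn
  obtain ⟨d, rfl⟩ : ∃ d : ℤ, δ = exp d := ⟨log δ, (exp_log hδ).symm⟩
  refine ⟨(1 - d).toNat, ?_⟩
  rw [hρ, ← exp_nsmul, exp_lt_exp, nsmul_eq_mul]
  have h1 : 1 - d ≤ ((1 - d).toNat : ℤ) := Int.self_le_toNat _
  have h2 : ((1 - d).toNat : ℤ) ≤ ((1 - d).toNat : ℤ) * n :=
    le_mul_of_one_le_right (Int.natCast_nonneg _) (by omega)
  have h3 : (((1 - d).toNat : ℕ) : ℤ) * -(n : ℤ) = -(((1 - d).toNat : ℤ) * n) := by ring
  rw [h3]
  linarith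

end Val

section Main

variable {K F : Type*} [Field K] [Field F] [Algebra K F] {x : F}
  [FiniteDimensional K⟮x⟯ F] [Algebra.IsSeparable K⟮x⟯ F]

/-- **Poles of `x` ↔ orbits of Laurent embeddings.**  `ζ` a primitive `n`-th root of unity of `K`;
`ι i : F → K((t))` a family of `[F : K(x)]` distinct `K`-embeddings sending `x` to the same series
`X₀ ∈ K((tⁿ))` of order `-n`; a group `G` acts on the index set through the powers of the twist
`t ↦ ζ t` (every `g` acts as a power, every power occurs).  Then `i ↦ {y | ι i y ∈ K[[t]]}` induces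
a bijection from the `G`-orbits onto the poles of `x`. -/
theorem exists_bijective_orbit_place_poles_laurent (hxt : Transcendental K x)
    (n : ℕ) [NeZero n] (ζ : K) (hζ : IsPrimitiveRoot ζ n)
    {G I : Type*} [Group G] [MulAction G I] (ι : I → (F →ₐ[K] LaurentSeries K))
    (hι : Function.Injective ι) (hcardI : Nat.card I = Module.finrank K⟮x⟯ F)
    (X₀ : LaurentSeries K) (hX₀ : ∀ i, ι i x = X₀)
    (hsupp : ∀ m : ℤ, ¬ (n : ℤ) ∣ m → X₀.coeff m = 0) (hord : X₀.order = -(n : ℤ))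
    (h1 : ∀ (g : G) (i : I), ∃ k : ℕ, ∀ (y : F) (m : ℤ),
      (ι (g • i) y).coeff m = ζ ^ ((k : ℤ) * m) * (ι i y).coeff m)
    (h2 : ∀ (i : I) (k : ℕ), ∃ g : G, ∀ (y : F) (m : ℤ),
      (ι (g • i) y).coeff m = ζ ^ ((k : ℤ) * m) * (ι i y).coeff m) :
    ∃ f : MulAction.orbitRel.Quotient G I → {w : Place K F // w.ord x < 0},
      Function.Bijective f ∧ ∀ (i : I) (y : F),
        y ∈ (f (Quotient.mk'' i) : Place K F).toValuationSubring ↔
          ∀ m : ℤ, m < 0 → (ι i y).coeff m = 0 := by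
  have hn : 0 < n := Nat.pos_of_ne_zero (NeZero.ne n)
  have hn' : (0 : ℤ) < n := by exact_mod_cast hn
  have hζ0 : ζ ≠ 0 := hζ.ne_zero (NeZero.ne n)
  have hX₀ne : X₀ ≠ 0 := by
    rintro rfl
    rw [HahnSeries.order_zero] at hord
    omega
  have hX₀v : (Valued.v X₀ : ℤᵐ⁰) = exp (n : ℤ) := by
    rw [valuation_eq_exp_neg_order hX₀ne, hord, neg_neg]
  have hX₀fix : twist ζ hζ0 X₀ = X₀ := (twist_eq_self_iff hζ hζ0 X₀).mpr hsupp
  have hYv : (Valued.v X₀⁻¹ : ℤᵐ⁰) = exp (-(n : ℤ)) := by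
    rw [map_inv₀, hX₀v, exp_neg]
  have hYfix : twist ζ hζ0 X₀⁻¹ = X₀⁻¹ := by rw [map_inv₀, hX₀fix]
  obtain ⟨f, hf, hfi⟩ := exists_bijective_orbit_place_poles_cyclic
    (Valued.v : Valuation (LaurentSeries K) ℤᵐ⁰) hxt n (twist ζ hζ0)
    (iterate_twist_of_pow_eq_one hζ0 hζ.pow_eq_one) ι hι
    (fun g i => by
      obtain ⟨k, hk⟩ := h1 g i
      refine ⟨k, fun y => ?_⟩
      ext m
      rw [iterate_twist_coeff]
      exact hk y m)
    (fun i k => by
      obtain ⟨g, hg⟩ := h2 i k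
      refine ⟨g, fun y => ?_⟩
      ext m
      rw [iterate_twist_coeff]
      exact hg y m)
    hcardI X₀ hX₀ (valuation_twist ζ hζ0) valuation_algebraMap_le_one
    (by rw [hX₀v, ← exp_zero, exp_lt_exp]; exact hn')
    (fun δ hδ => exists_pow_lt_of_valuation_eq hn _ (by rw [hX₀v, exp_neg]) δ hδ)
    (fun c hc ε hε => by
      obtain ⟨z, hz, hlt⟩ := exists_mem_adjoin_valuation_lt hn hζ hζ0 X₀⁻¹ hYv hYfix c hc ε hε
      refine ⟨z, ?_, hlt⟩
      rw [inv_inv, Set.pair_comm] at hz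
      exact hz)
  refine ⟨f, hf, fun i y => ?_⟩
  rw [hfi i, Valuation.mem_valuationSubring_iff, Valuation.comap_apply]
  exact valuation_le_one_iff _

/-- **Poles of `x` ↔ orbits of Laurent embeddings, cardinality form.** -/
theorem card_poles_eq_card_orbits_laurent (hxt : Transcendental K x)
    (n : ℕ) [NeZero n] (ζ : K) (hζ : IsPrimitiveRoot ζ n)
    {G I : Type*} [Group G] [MulAction G I] (ι : I → (F →ₐ[K] LaurentSeries K))
    (hι : Function.Injective ι) (hcardI : Nat.card I = Module.finrank K⟮x⟯ F)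
    (X₀ : LaurentSeries K) (hX₀ : ∀ i, ι i x = X₀)
    (hsupp : ∀ m : ℤ, ¬ (n : ℤ) ∣ m → X₀.coeff m = 0) (hord : X₀.order = -(n : ℤ))
    (h1 : ∀ (g : G) (i : I), ∃ k : ℕ, ∀ (y : F) (m : ℤ),
      (ι (g • i) y).coeff m = ζ ^ ((k : ℤ) * m) * (ι i y).coeff m)
    (h2 : ∀ (i : I) (k : ℕ), ∃ g : G, ∀ (y : F) (m : ℤ),
      (ι (g • i) y).coeff m = ζ ^ ((k : ℤ) * m) * (ι i y).coeff m) :
    Nat.card {w : Place K F // w.ord x < 0} = Nat.card (MulAction.orbitRel.Quotient G I) := by
  obtain ⟨f, hf, -⟩ := exists_bijective_orbit_place_poles_laurent hxt n ζ hζ ι hι hcardI X₀ hX₀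
    hsupp hord h1 h2
  exact (Nat.card_eq_of_bijective f hf).symm

/-- **Zeros of `x - a` ↔ orbits of Laurent embeddings.**  As
`exists_bijective_orbit_place_poles_laurent`, with `X₀ - a` of order `n`. -/
theorem exists_bijective_orbit_place_zeros_laurent (hxt : Transcendental K x) (a : K)
    (n : ℕ) [NeZero n] (ζ : K) (hζ : IsPrimitiveRoot ζ n)
    {G I : Type*} [Group G] [MulAction G I] (ι : I → (F →ₐ[K] LaurentSeries K))
    (hι : Function.Injective ι) (hcardI : Nat.card I = Module.finrank K⟮x⟯ F)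
    (X₀ : LaurentSeries K) (hX₀ : ∀ i, ι i x = X₀)
    (hsupp : ∀ m : ℤ, ¬ (n : ℤ) ∣ m → X₀.coeff m = 0)
    (hne : X₀ - algebraMap K (LaurentSeries K) a ≠ 0)
    (hord : (X₀ - algebraMap K (LaurentSeries K) a).order = (n : ℤ))
    (h1 : ∀ (g : G) (i : I), ∃ k : ℕ, ∀ (y : F) (m : ℤ),
      (ι (g • i) y).coeff m = ζ ^ ((k : ℤ) * m) * (ι i y).coeff m)
    (h2 : ∀ (i : I) (k : ℕ), ∃ g : G, ∀ (y : F) (m : ℤ),
      (ι (g • i) y).coeff m = ζ ^ ((k : ℤ) * m) * (ι i y).coeff m) :
    ∃ f : MulAction.orbitRel.Quotient G I →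
        {w : Place K F // 0 < w.ord (x - algebraMap K F a)},
      Function.Bijective f ∧ ∀ (i : I) (y : F),
        y ∈ (f (Quotient.mk'' i) : Place K F).toValuationSubring ↔
          ∀ m : ℤ, m < 0 → (ι i y).coeff m = 0 := by
  have hn : 0 < n := Nat.pos_of_ne_zero (NeZero.ne n)
  have hn' : (0 : ℤ) < n := by exact_mod_cast hn
  have hζ0 : ζ ≠ 0 := hζ.ne_zero (NeZero.ne n)
  have hX₀fix : twist ζ hζ0 X₀ = X₀ := (twist_eq_self_iff hζ hζ0 X₀).mpr hsupp
  have hYv : (Valued.v (X₀ - algebraMap K (LaurentSeries K) a) : ℤᵐ⁰) = exp (-(n : ℤ)) := by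
    rw [valuation_eq_exp_neg_order hne, hord]
  have hYfix : twist ζ hζ0 (X₀ - algebraMap K (LaurentSeries K) a) =
      X₀ - algebraMap K (LaurentSeries K) a := by
    rw [map_sub, hX₀fix, twist_algebraMap]
  obtain ⟨f, hf, hfi⟩ := exists_bijective_orbit_place_cyclic
    (Valued.v : Valuation (LaurentSeries K) ℤᵐ⁰) hxt a n (twist ζ hζ0)
    (iterate_twist_of_pow_eq_one hζ0 hζ.pow_eq_one) ι hι
    (fun g i => by
      obtain ⟨k, hk⟩ := h1 g i
      refine ⟨k, fun y => ?_⟩
      ext m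
      rw [iterate_twist_coeff]
      exact hk y m)
    (fun i k => by
      obtain ⟨g, hg⟩ := h2 i k
      refine ⟨g, fun y => ?_⟩
      ext m
      rw [iterate_twist_coeff]
      exact hg y m)
    hcardI X₀ hX₀ (valuation_twist ζ hζ0) valuation_algebraMap_le_one
    (by rw [hYv, ← exp_zero, exp_lt_exp]; omega)
    (fun δ hδ => exists_pow_lt_of_valuation_eq hn _ hYv δ hδ)
    (fun c hc ε hε => exists_mem_adjoin_valuation_lt hn hζ hζ0 _ hYv hYfix c hc ε hε)
  refine ⟨f, hf, fun i y => ?_⟩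
  rw [hfi i, Valuation.mem_valuationSubring_iff, Valuation.comap_apply]
  exact valuation_le_one_iff _

/-- **Zeros of `x - a` ↔ orbits of Laurent embeddings, cardinality form.** -/
theorem card_zeros_eq_card_orbits_laurent (hxt : Transcendental K x) (a : K)
    (n : ℕ) [NeZero n] (ζ : K) (hζ : IsPrimitiveRoot ζ n)
    {G I : Type*} [Group G] [MulAction G I] (ι : I → (F →ₐ[K] LaurentSeries K))
    (hι : Function.Injective ι) (hcardI : Nat.card I = Module.finrank K⟮x⟯ F)
    (X₀ : LaurentSeries K) (hX₀ : ∀ i, ι i x = X₀)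
    (hsupp : ∀ m : ℤ, ¬ (n : ℤ) ∣ m → X₀.coeff m = 0)
    (hne : X₀ - algebraMap K (LaurentSeries K) a ≠ 0)
    (hord : (X₀ - algebraMap K (LaurentSeries K) a).order = (n : ℤ))
    (h1 : ∀ (g : G) (i : I), ∃ k : ℕ, ∀ (y : F) (m : ℤ),
      (ι (g • i) y).coeff m = ζ ^ ((k : ℤ) * m) * (ι i y).coeff m)
    (h2 : ∀ (i : I) (k : ℕ), ∃ g : G, ∀ (y : F) (m : ℤ),
      (ι (g • i) y).coeff m = ζ ^ ((k : ℤ) * m) * (ι i y).coeff m) :
    Nat.card {w : Place K F // 0 < w.ord (x - algebraMap K F a)} =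
      Nat.card (MulAction.orbitRel.Quotient G I) := by
  obtain ⟨f, hf, -⟩ := exists_bijective_orbit_place_zeros_laurent hxt a n ζ hζ ι hι hcardI X₀ hX₀
    hsupp hne hord h1 h2
  exact (Nat.card_eq_of_bijective f hf).symm

end Main

end Fermat.Agent.Lib.EmbOrbit
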